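import Fermat.Agent.Units.Inv

/-!
# UNITS: the equivariant `S`-unit formula
-/

set_option autoImplicit false

open scoped Pointwise NumberField
open NumberField

namespace Fermat.Agent.Units

open Fermat.Agent.PT Fermat.Agent.PTLocal Fermat.Agent.PTGlob Fermat.Agent.CFT Fermat.Agent.CFT6
  Fermat.Agent.PTC

section clt

/-- triviality of the `S`-class group -/
def ClTriv (K : Type) [Field K] (S : Finset Nat.Primes) : Prop :=
  ∀ f : Idele K, ∃ x : Kˣ, ∀ q ∉ S, ∀ φ : Emb K q, ‖φ (x : K)‖ = ‖(f.1 q φ : Cq q)‖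

variable {K K' : Type} [Field K] [Field K'] {S S' : Finset Nat.Primes}

lemma ClTriv.mono (h : ClTriv K S) (hS : S ⊆ S') : ClTriv K S' := fun f => by
  obtain ⟨x, hx⟩ := h f
  exact ⟨x, fun q hq φ => hx q (fun h => hq (hS h)) φ⟩

lemma ClTriv.congr (e : K ≃+* K') (h : ClTriv K S) : ClTriv K' S := fun f => by
  obtain ⟨x, hx⟩ := h (Idele.map (e.symm : K' →+* K) f)
  refine ⟨Units.map (e : K →* K') x, fun q hq φ => ?_⟩
  have h1 := hx q hq (φ.comp (e : K →+* K'))
  have h2 : (φ.comp (e : K →+* K')).comp (e.symm : K' →+* K) = φ := by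
    ext y
    show φ (e (e.symm y)) = φ y
    rw [RingEquiv.apply_symm_apply]
  have h3 : ((Idele.map (e.symm : K' →+* K) f : Idele K).1 q (φ.comp (e : K →+* K')) : Cq q) =
      (f.1 q φ : Cq q) := by
    show ((f.1 q ((φ.comp (e : K →+* K')).comp (e.symm : K' →+* K)) : (Cq q)ˣ) : Cq q) = _
    rw [h2]
  rw [h3] at h1
  exact h1

lemma ClTriv.eq_one [NumberField K] (h : ClTriv K S) (c : ClS K S) : c = 1 := by
  obtain ⟨f, rfl⟩ := QuotientGroup.mk_surjective c
  obtain ⟨x, hx⟩ := h f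
  rw [QuotientGroup.eq_one_iff]
  have h1 : f = princ K x * (f / princ K x) := by rw [mul_div_cancel]
  rw [h1]
  refine Subgroup.mul_mem_sup ⟨x, rfl⟩ (mem_BS'.2 (fun q hq φ => ?_))
  have h2 : (((f / princ K x : Idele K).1 q φ : (Cq q)ˣ) : Cq q) =
      (f.1 q φ : Cq q) / φ (x : K) := by
    have h : ∀ a b : (Cq q)ˣ, ((a / b : (Cq q)ˣ) : Cq q) = (a : Cq q) / (b : Cq q) := by
      intro a b; simp
    exact h _ _
  rw [h2, norm_div, hx q hq φ]
  exact div_self (norm_ne_zero_iff.2 (Units.ne_zero _))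

lemma exists_clTriv (K : Type) [Field K] [NumberField K] : ∃ S, ClTriv K S := by
  classical
  have hfin : Finite (Idele K ⧸ princUnit K) := finite_quotient_princUnit
  have : Fintype (Idele K ⧸ princUnit K) := Fintype.ofFinite _
  let B : (Idele K ⧸ princUnit K) → Finset Nat.Primes := fun c => c.out.2.2.toFinset
  refine ⟨Finset.univ.biUnion B, fun f => ?_⟩
  obtain ⟨u, hu⟩ := QuotientGroup.mk_out_eq_mul (princUnit K) f
  obtain ⟨_, ⟨x, rfl⟩, w, hw, hxw⟩ := Subgroup.mem_sup.1 u.2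
  rw [mem_unitIdele] at hw
  refine ⟨x⁻¹, fun q hq φ => ?_⟩
  have h1 : ‖((((f : Idele K ⧸ princUnit K).out : Idele K).1 q φ : (Cq q)ˣ) : Cq q)‖ = 1 := by
    by_contra hne
    apply hq
    rw [Finset.mem_biUnion]
    exact ⟨_, Finset.mem_univ _, (Set.Finite.mem_toFinset _).2 ⟨φ, hne⟩⟩
  have h2 : ((((f : Idele K ⧸ princUnit K).out : Idele K).1 q φ : (Cq q)ˣ) : Cq q) =
      (f.1 q φ : Cq q) * (φ (x : K) * (w.1 q φ : Cq q)) := by
    rw [hu, ← hxw]; rfl
  rw [h2, norm_mul, norm_mul, hw q φ, mul_one] at h1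
  rw [Units.val_inv_eq_inv_val, map_inv₀, norm_inv]
  exact (eq_inv_of_mul_eq_one_left h1).symm

end clt

-- the frozen algebra structure on `ℚ̄`, and the induced ones on subfields
attribute [-instance] DivisionRing.toRatAlgebra
noncomputable local instance instAlgebraQb13 : Algebra ℚ (AlgebraicClosure ℚ) :=
  DivisionRing.toRatAlgebra

variable {S S₁ : Finset Nat.Primes} {p : ℕ} [hp : Fact p.Prime] {U : Subgroup GQ}

lemma isOpen_mono (h : S₁ ⊆ S) (hU : IsOpenSub (sL S₁) U) : IsOpenSub (sL S) U := by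
  rw [isOpenSub_sL_iff] at hU ⊢
  obtain ⟨F, hF, hle⟩ := hU
  exact ⟨F, ⟨hF.1, fun q hq => hF.2 q (fun h' => hq (h h'))⟩, hle⟩

/-- the field of `U` does not depend on `S` -/
noncomputable def toFix (hU : IsOpenSub (sL S) U) :
    (lgV hU).E →+* (IntermediateField.fixedField U : IntermediateField ℚ (AlgebraicClosure ℚ)) :=
  (ιE (lgV hU)).codRestrict
    (IntermediateField.fixedField U : IntermediateField ℚ (AlgebraicClosure ℚ)) (fun x => by
    rw [IntermediateField.mem_fixedField_iff]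
    intro g hg
    exact (mem_V_iff hU g).1 hg x)

lemma toFix_coe (hU : IsOpenSub (sL S) U) (x : (lgV hU).E) :
    ((toFix hU x : (IntermediateField.fixedField U : IntermediateField ℚ (AlgebraicClosure ℚ))) :
      AlgebraicClosure ℚ) = ((x : OmS S) : Qb) := rfl

lemma toFix_bijective (hU : IsOpenSub (sL S) U) : Function.Bijective (toFix hU) := by
  refine ⟨(toFix hU).injective, fun x => ?_⟩
  have hx := (IntermediateField.mem_fixedField_iff U _).1 x.2
  have hxS : (x : AlgebraicClosure ℚ) ∈ OmS S := by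
    obtain ⟨F, hF, hle⟩ := isOpenSub_sL_iff.1 hU
    apply (isUnramifiedOutside_iff.1 hF).2
    rw [← InfiniteGalois.fixedField_fixingSubgroup F, IntermediateField.mem_fixedField_iff]
    intro f hf
    exact hx f (hle hf)
  have hxE : (⟨x, hxS⟩ : OmS S) ∈ (lgV hU).E := by
    rw [(lgV hU).mem_E]
    intro g
    apply Subtype.ext
    have h1 : ((jS S (g : GQ) (⟨x, hxS⟩ : OmS S) : OmS S) : Qb) = (g : GQ) x := jS_apply _ _
    exact h1.trans (hx _ g.2)
  exact ⟨⟨_, hxE⟩, Subtype.ext rfl⟩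

/-- comparison of the fields of `U` for different `S` -/
noncomputable def fieldEquiv (hU₁ : IsOpenSub (sL S₁) U) (hU : IsOpenSub (sL S) U) :
    (lgV hU₁).E ≃+* (lgV hU).E :=
  (RingEquiv.ofBijective _ (toFix_bijective hU₁)).trans
    (RingEquiv.ofBijective _ (toFix_bijective hU)).symm

/-- `Ш²(Map(G/U, μ_p)) = 0` if the `S`-class group is trivial -/
lemma sha2_eq_zero (hp2 : p ≠ 2) (hpS : ExtCitation.pPrime p ∈ S) (hU : IsOpenSub (sL S) U)
    (hUW : U ≤ muW p) (hCl : ∀ c : ClS (lgV hU).E S, c = 1) :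
    ∀ x ∈ (ptd S).sha2 (mapAct (cosetAct U) (muA p)), x = 0 := by
  obtain ⟨ζ, hζ⟩ := exists_zeta (S := S) hpS
  obtain ⟨h1, hfin⟩ := card_le_kerV hU hUW hpS hζ _ (abhnHyp hζ hp2 hpS U hU hUW)
  have h2 := card_ker_H2 (lgV (stU_open hU)) hζ (fix_zeta hζ (stU_open hU) (stU_le hUW))
    (exists_pPrime hpS)
  have key : ∀ (W : Subgroup GQ), W = U → ∀ hWo : IsOpenSub (sL S) W,
      ∀ c : ClS (lgV hWo).E S, c = 1 := by
    rintro _ rfl hWo c; exact hCl c
  have h3 := key _ (stU_eq U) (stU_open hU)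
  have h4 : (powMonoidHom p : ClS (lgV (stU_open hU)).E S →*
      ClS (lgV (stU_open hU)).E S).range.index = 1 := by
    rw [Subgroup.index_eq_one, eq_top_iff]
    intro c _
    exact ⟨c, by rw [h3 c]; exact one_pow p⟩
  rw [h4] at h2
  rw [h2] at h1
  have h5 : Subsingleton ((ptd S).sha2 (mapAct (cosetAct U) (muA p))) :=
    Finite.card_le_one_iff_subsingleton.1 h1
  intro x hx
  exact congrArg Subtype.val (Subsingleton.elim (⟨x, hx⟩ :
    (ptd S).sha2 (mapAct (cosetAct U) (muA p))) 0)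

/-- additive invariants from multiplicative functions -/
def AInv.ofMulFun {Δ : Type} [Group Δ] (m : MulFun p Δ) : AInv p Δ where
  h := m.h
  pos := m.pos
  ses S hf h0 := m.mul S h0

/-- **UNITS** -/
theorem units_main (hp2 : p ≠ 2) (hpS₁ : ExtCitation.pPrime p ∈ S₁)
    (hU₁ : IsOpenSub (sL S₁) U) (hUW : U ≤ muW p) :
    ∃ S₀, S₁ ⊆ S₀ ∧ ∀ S, S₀ ⊆ S →
      (∀ x ∈ (ptd S).sha2 (mapAct (cosetAct U) (muA p)), x = 0) ∧
      ∀ (V : Subgroup GQ) (hUV : U ≤ V) [(U.subgroupOf V).Normal]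
        (m : MulFun p (V ⧸ U.subgroupOf V)) (c : GQ)
        (_ : ∃ j : Qb →+* ℂ, ∀ x, j (c x) = (starRingEnd ℂ) (j x)),
        m.h (rtH1 U V hUV (sL S) (muA p)) * m.h (rtInv U V hUV p ⊤) =
          m.h (rtH0 U V hUV (muA p)) * m.h (rtInv U V hUV p (Subgroup.zpowers c)) *
            ∏ v : ↥S, m.h (rtInv U V hUV p ((ptd S).r v).range) := by
  classical
  obtain ⟨S₂, hS₂⟩ := exists_clTriv (lgV hU₁).E
  refine ⟨S₁ ∪ S₂, Finset.subset_union_left, fun S hS => ?_⟩
  have hS₁ : S₁ ⊆ S := Finset.subset_union_left.trans hS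
  have hpS : ExtCitation.pPrime p ∈ S := hS₁ hpS₁
  have hU : IsOpenSub (sL S) U := isOpen_mono hS₁ hU₁
  have hCl : ∀ c : ClS (lgV hU).E S, c = 1 :=
    ((hS₂.mono (Finset.subset_union_right.trans hS)).congr (fieldEquiv hU₁ hU)).eq_one
  refine ⟨sha2_eq_zero hp2 hpS hU hUW hCl, ?_⟩
  rintro V hUV hN m c ⟨j, hc⟩
  let I := AInv.ofMulFun m
  have hfi := hU.finiteIndex
  have hΔ : Finite (V ⧸ U.subgroupOf V) := inferInstance
  have h1 := I.HH_SUnits (aD hUV hU) S
  have h2 := h_mod_SUnits hUV hU I hpS (fun c _ => hCl c)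
  have h3 := h_tor_SUnits hUV hU I hpS
  have h4 := h_inv_top (U := U) hUV I
  have h5 := h_inv_inf hUV hU hc I
  have h6 := fun q => h_inv_loc hUV hU I q
  have h7 := I.h_tor_pos (sAct (aD hUV hU) S) (fgp_of_fg hp.out.ne_zero)
  unfold AInv.HH at h1
  rw [div_mul_eq_mul_div, div_eq_iff (by positivity), h2, h3, ← h4, ← h5] at h1
  have h8 : ∀ q : ↥S, I.h (fnAct (rq (aD hUV hU) q.1) (ZMod p)) =
      I.h (rtInv U V hUV p ((ptd S).r q).range) := fun q => (h6 q.1).symm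
  simp only [h8] at h1
  have h9 : (I.h (rtH1 U V hUV (sL S) (muA p)) * I.h (rtInv U V hUV p ⊤) : ℕ) =
      I.h (rtH0 U V hUV (muA p)) * I.h (rtInv U V hUV p (Subgroup.zpowers c)) *
        ∏ v : ↥S, I.h (rtInv U V hUV p ((ptd S).r v).range) := by
    have h10 : ((I.h (rtH1 U V hUV (sL S) (muA p)) * I.h (rtInv U V hUV p ⊤) : ℕ) : ℚ) =
      ((I.h (rtH0 U V hUV (muA p)) * I.h (rtInv U V hUV p (Subgroup.zpowers c)) *
        ∏ v : ↥S, I.h (rtInv U V hUV p ((ptd S).r v).range) : ℕ) : ℚ) := by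
      push_cast
      rw [h1]
      ring
    exact_mod_cast h10
  exact h9

end Fermat.Agent.Units
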