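import Fermat.Agent.PT.GSet
import Fermat.Agent.PT.Sum
import Fermat.Agent.Herbrand.Fg

/-!
# Additive invariants of finite `p`-torsion modules, Herbrand-type quotients
-/

set_option autoImplicit false

namespace Fermat.Agent.Units

open Fermat.Agent.PT

/-- an additive invariant of finite `p`-torsion modules over a finite group `Δ`
(for example `A ↦ card (e Aⁿ)` for an idempotent matrix `e` over `𝔽_p[Δ]`) -/
structure AInv (p : ℕ) (Δ : Type) [Group Δ] where
  /-- the value -/
  h : ∀ {A : Type} [AddCommGroup A], Act Δ A → ℕ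
  pos : ∀ {A : Type} [AddCommGroup A] [Finite A] (ρ : Act Δ A), (∀ a : A, p • a = 0) → 0 < h ρ
  ses : ∀ {A B C : Type} [AddCommGroup A] [AddCommGroup B] [AddCommGroup C] {ρ : Act Δ A}
    {σ : Act Δ B} {τ : Act Δ C}, SES ρ σ τ → Finite B → (∀ b : B, p • b = 0) → h σ = h ρ * h τ

section basic

variable {p : ℕ} {Δ : Type} [Group Δ] (I : AInv p Δ) {A B C D : Type} [AddCommGroup A]
  [AddCommGroup B] [AddCommGroup C] [AddCommGroup D] {ρ : Act Δ A} {σ : Act Δ B} {τ : Act Δ C}
  {υ : Act Δ D}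

/-- a restricted action -/
def subAct (σ : Act Δ B) (N : AddSubgroup B) (hN : ∀ g, ∀ a ∈ N, σ g a ∈ N) : Act Δ N where
  toFun g := ((σ g).comp N.subtype).codRestrict N (fun a => hN g a a.2)
  map_one' := by
    ext a
    show σ 1 a = a
    rw [act_one]
  map_mul' g h := by
    ext a
    show σ (g * h) a = σ g (σ h a)
    rw [act_mul]

@[simp] lemma coe_subAct (σ : Act Δ B) (N : AddSubgroup B) (hN : ∀ g, ∀ a ∈ N, σ g a ∈ N) (g : Δ)
    (a : N) : (subAct σ N hN g a : B) = σ g a := rfl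

lemma AInv.h_subsingleton [Subsingleton A] (ρ : Act Δ A) : I.h ρ = 1 := by
  have hf : Finite A := inferInstance
  have h0 : ∀ a : A, p • a = 0 := fun a => Subsingleton.elim _ _
  let S : SES ρ ρ ρ :=
    { i := EHom.id ρ
      p := EHom.id ρ
      inj := fun _ _ h => h
      surj := fun a => ⟨a, rfl⟩
      exact := fun b => ⟨fun _ => ⟨b, rfl⟩, fun _ => Subsingleton.elim _ _⟩ }
  have h1 := I.ses S hf h0
  have h2 := I.pos ρ h0
  nlinarith

lemma AInv.h_congr (E : EEquiv ρ σ) (hf : Finite B) (h0 : ∀ b : B, p • b = 0) : I.h ρ = I.h σ := by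
  let S : SES ρ σ (trivAct Δ PUnit) :=
    { i := E.hom
      p := ⟨0, fun _ _ => rfl⟩
      inj := E.e.injective
      surj := fun a => ⟨0, rfl⟩
      exact := fun b => ⟨fun _ => ⟨E.e.symm b, E.e.apply_symm_apply b⟩, fun _ => rfl⟩ }
  rw [I.ses S hf h0, I.h_subsingleton (trivAct Δ PUnit), mul_one]

/-- an equivariant bijection gives equality -/
lemma AInv.h_bij (φ : EHom ρ σ) (hφ : Function.Bijective φ.f) (hf : Finite B)
    (h0 : ∀ b : B, p • b = 0) : I.h ρ = I.h σ :=
  I.h_congr ⟨AddEquiv.ofBijective φ.f hφ, φ.comm⟩ hf h0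

/-- the action on the range -/
def rangeAct (φ : EHom ρ σ) : Act Δ φ.f.range :=
  subAct σ φ.f.range (by rintro g _ ⟨a, rfl⟩; exact ⟨ρ g a, φ.comm g a⟩)

/-- corestriction to the range -/
def toRange (φ : EHom ρ σ) : EHom ρ (rangeAct φ) :=
  ⟨φ.f.rangeRestrict, fun g a => Subtype.ext (φ.comm g a)⟩

/-- exactness of two composable maps -/
lemma AInv.h_mid (φ : EHom ρ σ) (ψ : EHom σ τ) (hex : ∀ b, ψ.f b = 0 ↔ ∃ a, φ.f a = b)
    (hf : Finite B) (h0 : ∀ b : B, p • b = 0) : I.h σ = I.h (rangeAct φ) * I.h (rangeAct ψ) := by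
  let S : SES (rangeAct φ) σ (rangeAct ψ) :=
    { i := ⟨φ.f.range.subtype, fun _ _ => rfl⟩
      p := toRange ψ
      inj := Subtype.val_injective
      surj := AddMonoidHom.rangeRestrict_surjective _
      exact := fun b => by
        constructor
        · intro h
          obtain ⟨a, ha⟩ := (hex b).1 (congrArg Subtype.val h)
          exact ⟨⟨b, a, ha⟩, rfl⟩
        · rintro ⟨⟨_, a, rfl⟩, rfl⟩
          exact Subtype.ext ((hex _).2 ⟨a, rfl⟩) }
  exact I.ses S hf h0

lemma AInv.h_left (φ : EHom ρ σ) (hφ : Function.Injective φ.f) (hf : Finite B)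
    (h0 : ∀ b : B, p • b = 0) : I.h ρ = I.h (rangeAct φ) := by
  refine I.h_bij (toRange φ) ⟨fun a b h => hφ (congrArg Subtype.val h),
    AddMonoidHom.rangeRestrict_surjective _⟩ (Finite.of_injective _ Subtype.val_injective) ?_
  exact fun b => Subtype.ext (h0 b)

lemma AInv.h_right (φ : EHom ρ σ) (hφ : Function.Surjective φ.f) (hf : Finite B)
    (h0 : ∀ b : B, p • b = 0) : I.h (rangeAct φ) = I.h σ := by
  refine I.h_bij ⟨φ.f.range.subtype, fun _ _ => rfl⟩ ⟨Subtype.val_injective, fun b => ?_⟩ hf h0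
  obtain ⟨a, rfl⟩ := hφ b
  exact ⟨⟨_, a, rfl⟩, rfl⟩

variable (p) in
/-- the action on `B / p` -/
def modAct (σ : Act Δ B) : Act Δ (B ⧸ (nsmulAddMonoidHom p : B →+ B).range) :=
  quotAct σ _ (by rintro g _ ⟨b, rfl⟩; exact ⟨σ g b, (map_nsmul (σ g) p b).symm⟩)

variable (p) in
/-- the action on `B[p]` -/
def torAct (σ : Act Δ B) : Act Δ (nsmulAddMonoidHom p : B →+ B).ker :=
  subAct σ _ (by
    intro g b hb
    rw [AddMonoidHom.mem_ker] at hb ⊢
    show p • σ g b = 0
    rw [← map_nsmul]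
    exact (congrArg (σ g) hb).trans (map_zero _))

variable (p) in
/-- functoriality of `B / p` -/
def modHom (φ : EHom ρ σ) : EHom (modAct p ρ) (modAct p σ) where
  f := QuotientAddGroup.map _ _ φ.f (by
    rintro _ ⟨a, rfl⟩
    exact ⟨φ.f a, (map_nsmul φ.f p a).symm⟩)
  comm g a := by
    obtain ⟨a, rfl⟩ := QuotientAddGroup.mk_surjective a
    exact congrArg (QuotientAddGroup.mk) (φ.comm g a)

variable (p) in
/-- functoriality of `B[p]` -/
def torHom (φ : EHom ρ σ) : EHom (torAct p ρ) (torAct p σ) where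
  f := (φ.f.comp (nsmulAddMonoidHom p : A →+ A).ker.subtype).codRestrict _ (fun a => by
    rw [AddMonoidHom.mem_ker]
    show p • φ.f a = 0
    rw [← map_nsmul]
    exact (congrArg φ.f a.2).trans (map_zero _))
  comm g a := Subtype.ext (φ.comm g a)

lemma modHom_mk (φ : EHom ρ σ) (a : A) :
    (modHom p φ).f (QuotientAddGroup.mk a) = QuotientAddGroup.mk (φ.f a) := rfl

lemma coe_torHom (φ : EHom ρ σ) (a : (nsmulAddMonoidHom p : A →+ A).ker) :
    ((torHom p φ).f a : B) = φ.f a := rfl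

lemma mod_nsmul (b : B ⧸ (nsmulAddMonoidHom p : B →+ B).range) : p • b = 0 := by
  obtain ⟨b, rfl⟩ := QuotientAddGroup.mk_surjective b
  exact (QuotientAddGroup.eq_zero_iff _).2 ⟨b, rfl⟩

lemma tor_nsmul (b : (nsmulAddMonoidHom p : B →+ B).ker) : p • b = 0 := Subtype.ext b.2

/-- finiteness of `B/p` and `B[p]` -/
def Fgp (p : ℕ) (B : Type) [AddCommGroup B] : Prop :=
  Finite (B ⧸ (nsmulAddMonoidHom p : B →+ B).range) ∧ Finite (nsmulAddMonoidHom p : B →+ B).ker

lemma fgp_of_finite [Finite B] : Fgp p B := ⟨inferInstance, inferInstance⟩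

lemma fgp_of_fg [Module.Finite ℤ B] (hp : p ≠ 0) : Fgp p B := by
  constructor
  · have h1 : Module.Finite ℤ (B ⧸ (nsmulAddMonoidHom p : B →+ B).range) :=
      Module.Finite.of_surjective
        (QuotientAddGroup.mk' (nsmulAddMonoidHom p : B →+ B).range).toIntLinearMap
        (QuotientAddGroup.mk'_surjective _)
    refine Module.finite_of_fg_torsion _ (fun b => ⟨⟨(p : ℤ), mem_nonZeroDivisors_of_ne_zero
      (by exact_mod_cast hp)⟩, ?_⟩)
    show (p : ℤ) • b = 0
    rw [natCast_zsmul]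
    exact mod_nsmul b
  · have h1 : Module.Finite ℤ (nsmulAddMonoidHom p : B →+ B).ker :=
      inferInstanceAs (Module.Finite ℤ (AddSubgroup.toIntSubmodule (nsmulAddMonoidHom p : B →+ B).ker))
    refine Module.finite_of_fg_torsion _ (fun b => ⟨⟨(p : ℤ), mem_nonZeroDivisors_of_ne_zero
      (by exact_mod_cast hp)⟩, ?_⟩)
    show (p : ℤ) • b = 0
    rw [natCast_zsmul]
    exact tor_nsmul b

end basic

section snake

variable {p : ℕ} {Δ : Type} [Group Δ] {A B C : Type} [AddCommGroup A]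
  [AddCommGroup B] [AddCommGroup C] {ρ : Act Δ A} {σ : Act Δ B} {τ : Act Δ C} (S : SES ρ σ τ)

include S in
lemma exists_snake (c : (nsmulAddMonoidHom p : C →+ C).ker) :
    ∃ (b : B) (a : A), S.p.f b = c ∧ S.i.f a = p • b := by
  obtain ⟨b, hb⟩ := S.surj (c : C)
  obtain ⟨a, ha⟩ := (S.exact (p • b)).1 (by rw [map_nsmul, hb]; exact c.2)
  exact ⟨b, a, hb, ha⟩

lemma snake_unique {b b' : B} {a a' : A} (h : S.p.f b = S.p.f b') (ha : S.i.f a = p • b)
    (ha' : S.i.f a' = p • b') :
    (QuotientAddGroup.mk a : A ⧸ (nsmulAddMonoidHom p : A →+ A).range) = QuotientAddGroup.mk a' := by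
  obtain ⟨x, hx⟩ := (S.exact (-b + b')).1 (by rw [map_add, map_neg, h]; simp)
  rw [QuotientAddGroup.eq]
  refine ⟨x, S.inj ?_⟩
  show S.i.f (p • x) = _
  rw [map_nsmul, hx, map_add, map_neg, ha, ha', smul_add, smul_neg]

/-- the connecting map -/
noncomputable def snake : EHom (torAct p τ) (modAct p ρ) where
  f := AddMonoidHom.mk' (fun c => QuotientAddGroup.mk (exists_snake S c).choose_spec.choose) (by
    intro c c'
    have h1 := (exists_snake S c).choose_spec.choose_spec
    have h2 := (exists_snake S c').choose_spec.choose_spec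
    have h3 := (exists_snake S (c + c')).choose_spec.choose_spec
    rw [← QuotientAddGroup.mk_add]
    refine snake_unique S ?_ h3.2 (b' := (exists_snake S c).choose + (exists_snake S c').choose) ?_
    · rw [h3.1, map_add, h1.1, h2.1]; rfl
    · rw [map_add, h1.2, h2.2, smul_add])
  comm g c := by
    have h1 := (exists_snake S c).choose_spec.choose_spec
    have h3 := (exists_snake S (torAct p τ g c)).choose_spec.choose_spec
    refine snake_unique S ?_ h3.2 (b' := σ g (exists_snake S c).choose) ?_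
    · rw [h3.1, S.p.comm, h1.1]; rfl
    · refine (S.i.comm g _).trans ?_
      rw [h1.2]
      exact map_nsmul (σ g) p _

lemma snake_eq {c : (nsmulAddMonoidHom p : C →+ C).ker} {b : B} {a : A} (hb : S.p.f b = c)
    (ha : S.i.f a = p • b) : (snake S).f c = QuotientAddGroup.mk a := by
  have h1 := (exists_snake S c).choose_spec.choose_spec
  exact snake_unique S (h1.1.trans hb.symm) h1.2 ha

lemma snake_tor_inj : Function.Injective (torHom p S.i).f := fun _ _ h =>
  Subtype.ext (S.inj (congrArg Subtype.val h))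

lemma snake_mod_surj : Function.Surjective (modHom p S.p).f := by
  intro c
  obtain ⟨c, rfl⟩ := QuotientAddGroup.mk_surjective c
  obtain ⟨b, rfl⟩ := S.surj c
  exact ⟨QuotientAddGroup.mk b, rfl⟩

lemma snake_ex1 (b : (nsmulAddMonoidHom p : B →+ B).ker) :
    (torHom p S.p).f b = 0 ↔ ∃ a, (torHom p S.i).f a = b := by
  constructor
  · intro h
    obtain ⟨a, ha⟩ := (S.exact (b : B)).1 (congrArg Subtype.val h)
    refine ⟨⟨a, S.inj ?_⟩, Subtype.ext ha⟩
    show S.i.f (p • a) = S.i.f 0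
    rw [map_nsmul, ha, map_zero]
    exact b.2
  · rintro ⟨a, rfl⟩
    exact Subtype.ext (S.p_i _)

lemma snake_ex2 (c : (nsmulAddMonoidHom p : C →+ C).ker) :
    (snake S).f c = 0 ↔ ∃ b, (torHom p S.p).f b = c := by
  obtain ⟨b, a, hb, ha⟩ := exists_snake S c
  constructor
  · intro h
    rw [snake_eq S hb ha, QuotientAddGroup.eq_zero_iff] at h
    obtain ⟨x, rfl⟩ := h
    refine ⟨⟨b - S.i.f x, ?_⟩, Subtype.ext ?_⟩
    · rw [AddMonoidHom.mem_ker]
      show p • (b - S.i.f x) = 0
      rw [smul_sub, ← ha, ← map_nsmul]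
      exact sub_self _
    · show S.p.f (b - S.i.f x) = c
      rw [map_sub, S.p_i, sub_zero, hb]
  · rintro ⟨b', rfl⟩
    have h1 : S.i.f (0 : A) = p • (b' : B) := by rw [map_zero]; exact b'.2.symm
    rw [snake_eq S rfl h1]
    rfl

lemma snake_ex3 (a : A ⧸ (nsmulAddMonoidHom p : A →+ A).range) :
    (modHom p S.i).f a = 0 ↔ ∃ c, (snake S).f c = a := by
  constructor
  · obtain ⟨a, rfl⟩ := QuotientAddGroup.mk_surjective a
    intro h
    rw [modHom_mk, QuotientAddGroup.eq_zero_iff] at h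
    obtain ⟨b, hb⟩ := h
    have hb' : S.i.f a = p • b := hb.symm
    refine ⟨⟨S.p.f b, ?_⟩, snake_eq S rfl hb'⟩
    rw [AddMonoidHom.mem_ker]
    show p • S.p.f b = 0
    rw [← map_nsmul, ← hb', S.p_i]
  · rintro ⟨c, rfl⟩
    obtain ⟨b, a, hb, ha⟩ := exists_snake S c
    rw [snake_eq S hb ha, modHom_mk, QuotientAddGroup.eq_zero_iff, ha]
    exact ⟨b, rfl⟩

lemma snake_ex4 (b : B ⧸ (nsmulAddMonoidHom p : B →+ B).range) :
    (modHom p S.p).f b = 0 ↔ ∃ a, (modHom p S.i).f a = b := by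
  constructor
  · obtain ⟨b, rfl⟩ := QuotientAddGroup.mk_surjective b
    intro h
    rw [modHom_mk, QuotientAddGroup.eq_zero_iff] at h
    obtain ⟨c, hc⟩ := h
    obtain ⟨b', rfl⟩ := S.surj c
    obtain ⟨a, ha⟩ := (S.exact (b - p • b')).1 (by
      rw [map_sub, map_nsmul, sub_eq_zero]; exact hc.symm)
    refine ⟨QuotientAddGroup.mk a, ?_⟩
    rw [modHom_mk, ha, QuotientAddGroup.eq]
    exact ⟨b', by simp⟩
  · rintro ⟨a, rfl⟩
    obtain ⟨a, rfl⟩ := QuotientAddGroup.mk_surjective a
    rw [modHom_mk, modHom_mk, S.p_i]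
    rfl

end snake

namespace AInv

variable {p : ℕ} {Δ : Type} [Group Δ] (I : AInv p Δ) {A B C : Type} [AddCommGroup A]
  [AddCommGroup B] [AddCommGroup C] {ρ : Act Δ A} {σ : Act Δ B} {τ : Act Δ C}

/-- the Herbrand-type quotient -/
noncomputable def HH (σ : Act Δ B) : ℚ := (I.h (modAct p σ) : ℚ) / I.h (torAct p σ)

lemma h_mod_pos (σ : Act Δ B) (hB : Fgp p B) : 0 < I.h (modAct p σ) := by
  have := hB.1
  exact I.pos _ mod_nsmul

lemma h_tor_pos (σ : Act Δ B) (hB : Fgp p B) : 0 < I.h (torAct p σ) := by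
  have := hB.2
  exact I.pos _ tor_nsmul

lemma HH_ne_zero (σ : Act Δ B) (hB : Fgp p B) : I.HH σ ≠ 0 := by
  have h1 := I.h_mod_pos σ hB
  have h2 := I.h_tor_pos σ hB
  unfold HH
  positivity

theorem six (S : SES ρ σ τ) (hA : Fgp p A) (hB : Fgp p B) (hC : Fgp p C) :
    I.h (torAct p ρ) * I.h (torAct p τ) * I.h (modAct p σ) =
      I.h (torAct p σ) * I.h (modAct p ρ) * I.h (modAct p τ) := by
  have e1 := I.h_left (torHom p S.i) (snake_tor_inj S) hB.2 tor_nsmul
  have e2 := I.h_mid (torHom p S.i) (torHom p S.p) (snake_ex1 S) hB.2 tor_nsmul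
  have e3 := I.h_mid (torHom p S.p) (snake S) (snake_ex2 S) hC.2 tor_nsmul
  have e4 := I.h_mid (snake S) (modHom p S.i) (snake_ex3 S) hA.1 mod_nsmul
  have e5 := I.h_mid (modHom p S.i) (modHom p S.p) (snake_ex4 S) hB.1 mod_nsmul
  have e6 := I.h_right (modHom p S.p) (snake_mod_surj S) hC.1 mod_nsmul
  rw [e1, e2, e3, e4, e5, e6]
  ring

theorem HH_mul (S : SES ρ σ τ) (hA : Fgp p A) (hB : Fgp p B) (hC : Fgp p C) :
    I.HH σ = I.HH ρ * I.HH τ := by
  have h := I.six S hA hB hC
  have h1 := I.h_tor_pos ρ hA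
  have h2 := I.h_tor_pos σ hB
  have h3 := I.h_tor_pos τ hC
  unfold HH
  rw [div_mul_div_comm, div_eq_div_iff (by positivity) (by positivity)]
  have h' : (I.h (torAct p ρ) : ℚ) * I.h (torAct p τ) * I.h (modAct p σ) =
      I.h (torAct p σ) * I.h (modAct p ρ) * I.h (modAct p τ) := by exact_mod_cast h
  linarith

/-- quotient `1` for modules killed by `p` -/
lemma h_mod_eq_tor_of_nsmul [Finite B] (σ : Act Δ B) (h0 : ∀ b : B, p • b = 0) :
    I.h (modAct p σ) = I.h (torAct p σ) := by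
  have h1 : I.h σ = I.h (modAct p σ) := by
    refine I.h_bij (σ := modAct p σ) ⟨QuotientAddGroup.mk' _, fun _ _ => rfl⟩
      ⟨?_, QuotientAddGroup.mk'_surjective _⟩ inferInstance mod_nsmul
    rw [injective_iff_map_eq_zero]
    intro b hb
    have hb' : (QuotientAddGroup.mk b : B ⧸ (nsmulAddMonoidHom p : B →+ B).range) = 0 := hb
    rw [QuotientAddGroup.eq_zero_iff] at hb'
    obtain ⟨c, hc⟩ := hb'
    rw [← hc]
    exact h0 c
  have h2 : I.h (torAct p σ) = I.h σ := by
    refine I.h_bij (ρ := torAct p σ) ⟨(nsmulAddMonoidHom p : B →+ B).ker.subtype, fun _ _ => rfl⟩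
      ⟨Subtype.val_injective, fun b => ⟨⟨b, h0 b⟩, rfl⟩⟩ inferInstance h0
  rw [← h1, h2]

theorem h_mod_eq_tor : ∀ (n : ℕ) {B : Type} [AddCommGroup B] [Finite B] (σ : Act Δ B),
    Nat.card B = n → I.h (modAct p σ) = I.h (torAct p σ) := by
  intro n
  induction n using Nat.strong_induction_on with
  | _ n ih =>
    intro B _ _ σ hn
    by_cases hker : Subsingleton (nsmulAddMonoidHom p : B →+ B).ker
    · rw [I.h_subsingleton (torAct p σ)]
      have hinj : Function.Injective (nsmulAddMonoidHom p : B →+ B) := by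
        rw [injective_iff_map_eq_zero]
        intro b hb
        exact congrArg Subtype.val (Subsingleton.elim (⟨b, hb⟩ : (nsmulAddMonoidHom p : B →+ B).ker) 0)
      have hsurj := Finite.surjective_of_injective hinj
      have : Subsingleton (B ⧸ (nsmulAddMonoidHom p : B →+ B).range) := by
        refine ⟨fun a b => ?_⟩
        have h0 : ∀ c : B ⧸ (nsmulAddMonoidHom p : B →+ B).range, c = 0 := by
          intro c
          obtain ⟨c, rfl⟩ := QuotientAddGroup.mk_surjective c
          exact (QuotientAddGroup.eq_zero_iff _).2 (hsurj c)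
        rw [h0 a, h0 b]
      rw [I.h_subsingleton]
    · -- the sequence `0 → B[p] → B → pB → 0`
      let m : EHom σ σ := ⟨nsmulAddMonoidHom p, fun g b => (map_nsmul (σ g) p b).symm⟩
      let S : SES (torAct p σ) σ (rangeAct m) :=
        { i := ⟨(nsmulAddMonoidHom p : B →+ B).ker.subtype, fun _ _ => rfl⟩
          p := toRange m
          inj := Subtype.val_injective
          surj := AddMonoidHom.rangeRestrict_surjective _
          exact := fun b => by
            constructor
            · intro h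
              exact ⟨⟨b, congrArg Subtype.val h⟩, rfl⟩
            · rintro ⟨a, rfl⟩
              exact Subtype.ext a.2 }
      have h1 := I.six S fgp_of_finite fgp_of_finite fgp_of_finite
      have h2 := I.h_mod_eq_tor_of_nsmul (torAct p σ) tor_nsmul
      have hlt : Nat.card m.f.range < n := by
        have h3 := AddSubgroup.card_mul_index m.f.ker
        rw [AddSubgroup.index_ker, hn] at h3
        rw [not_subsingleton_iff_nontrivial] at hker
        have h4 : 1 < Nat.card m.f.ker := Finite.one_lt_card_iff_nontrivial.2 hker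
        have h5 : 0 < Nat.card m.f.range := Nat.card_pos
        rw [← h3]
        nlinarith
      have h3 := ih _ hlt (rangeAct m) rfl
      rw [h2, h3] at h1
      have h4 := I.h_tor_pos (torAct p σ) fgp_of_finite
      have h5 := I.h_tor_pos (rangeAct m) fgp_of_finite
      have h6 : (I.h (torAct p (torAct p σ)) * I.h (torAct p (rangeAct m))) * I.h (modAct p σ) =
          (I.h (torAct p (torAct p σ)) * I.h (torAct p (rangeAct m))) * I.h (torAct p σ) := by
        rw [h1]; ring
      exact Nat.eq_of_mul_eq_mul_left (by positivity) h6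

theorem HH_finite [Finite B] (σ : Act Δ B) : I.HH σ = 1 := by
  unfold HH
  rw [I.h_mod_eq_tor _ σ rfl]
  have h2 := I.h_tor_pos σ fgp_of_finite
  rw [div_self]
  positivity

/-- invariance under injective maps with finite cokernel -/
theorem HH_of_inj (φ : EHom ρ σ) (hφ : Function.Injective φ.f)
    (hfin : Finite (B ⧸ φ.f.range)) (hA : Fgp p A) (hB : Fgp p B) : I.HH ρ = I.HH σ := by
  have h1 := I.HH_mul (SES.ofInj φ hφ) hA hB fgp_of_finite
  rw [h1]
  exact (mul_one _).symm.trans (congrArg (fun t => I.HH ρ * t) (I.HH_finite _).symm)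

/-- invariance under maps with finite kernel -/
theorem HH_of_surj (φ : EHom ρ σ) (hφ : Function.Surjective φ.f)
    (hfin : Finite φ.f.ker) (hA : Fgp p A) (hB : Fgp p B) : I.HH ρ = I.HH σ := by
  have h1 := I.HH_mul (SES.ofSurj φ hφ) fgp_of_finite hA hB
  rw [h1]
  exact (congrArg (fun t => t * I.HH σ) (I.HH_finite (kerAct φ))).trans (one_mul _)

theorem HH_congr (E : EEquiv ρ σ) (hA : Fgp p A) (hB : Fgp p B) :
    I.HH ρ = I.HH σ := by
  refine I.HH_of_surj E.hom E.e.surjective ?_ hA hB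
  have : E.hom.f.ker = ⊥ := (AddMonoidHom.ker_eq_bot_iff _).2 E.e.injective
  rw [this]
  infer_instance

/-- computing `B/p` -/
lemma h_mod_eq (D : EHom σ τ) (h0 : ∀ c : C, p • c = 0) (hD : Function.Surjective D.f)
    (hker : ∀ b, D.f b = 0 → ∃ b', p • b' = b)
    (hf : Finite (B ⧸ (nsmulAddMonoidHom p : B →+ B).range)) :
    I.h (modAct p σ) = I.h τ := by
  have hle : (nsmulAddMonoidHom p : B →+ B).range ≤ D.f.ker := by
    rintro _ ⟨b, rfl⟩
    rw [AddMonoidHom.mem_ker]
    show D.f (p • b) = 0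
    rw [map_nsmul, h0]
  let D' : EHom (modAct p σ) τ := ⟨QuotientAddGroup.lift _ D.f hle, fun g b => by
    obtain ⟨b, rfl⟩ := QuotientAddGroup.mk_surjective b
    exact D.comm g b⟩
  have hD' : Function.Surjective D'.f := by
    intro c
    obtain ⟨b, rfl⟩ := hD c
    exact ⟨QuotientAddGroup.mk b, rfl⟩
  refine I.h_bij D' ⟨?_, hD'⟩ (Finite.of_surjective _ hD') h0
  rw [injective_iff_map_eq_zero]
  intro b hb
  obtain ⟨b, rfl⟩ := QuotientAddGroup.mk_surjective b
  obtain ⟨b', hb'⟩ := hker b hb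
  exact (QuotientAddGroup.eq_zero_iff _).2 ⟨b', hb'⟩

/-- torsion free modules -/
lemma HH_of_torsionfree (σ : Act Δ B) (h : ∀ b : B, p • b = 0 → b = 0) :
    I.HH σ = I.h (modAct p σ) := by
  unfold HH
  have : Subsingleton (nsmulAddMonoidHom p : B →+ B).ker :=
    ⟨fun a b => Subtype.ext ((h a a.2).trans (h b b.2).symm)⟩
  rw [I.h_subsingleton (torAct p σ), Nat.cast_one, div_one]

end AInv

end Fermat.Agent.Units
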