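import Fermat.Agent.Units.AInv

/-!
# The averaging lemma
-/

set_option autoImplicit false

open Module

namespace Fermat.Agent.Units

open Fermat.Agent.PT

section avg

variable {Δ : Type} [Group Δ] [Fintype Δ] {E : Type} [AddCommGroup E] {X : Type}
  (ρ : Act Δ E) (r : Δ →* Equiv.Perm X)

/-- the permutation module of functions on `X` -/
abbrev fnAct (r : Δ →* Equiv.Perm X) (A : Type) [AddCommGroup A] : Act Δ (X → A) :=
  mapAct r (trivAct Δ A)

omit [Fintype Δ] in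
lemma fnAct_apply (A : Type) [AddCommGroup A] (δ : Δ) (f : X → A) (x : X) :
    fnAct r A δ f x = f (r δ⁻¹ x) := rfl

variable {A : Type} [AddCommGroup A]

/-- average of an additive map -/
def avg (φ : E →+ (X → A)) : EHom ρ (fnAct r A) where
  f :=
    { toFun := fun e x => ∑ δ : Δ, φ (ρ δ⁻¹ e) (r δ⁻¹ x)
      map_zero' := by ext x; simp
      map_add' := fun a b => by
        ext x
        simp only [map_add, Pi.add_apply, Finset.sum_add_distrib] }
  comm γ e := by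
    ext x
    show ∑ δ : Δ, φ (ρ δ⁻¹ (ρ γ e)) (r δ⁻¹ x) = ∑ δ : Δ, φ (ρ δ⁻¹ e) (r δ⁻¹ (r γ⁻¹ x))
    refine Fintype.sum_equiv (Equiv.mulLeft γ⁻¹) _ _ (fun δ => ?_)
    have h1 : (γ⁻¹ * δ)⁻¹ = δ⁻¹ * γ := by group
    simp only [Equiv.coe_mulLeft, h1]
    rw [act_mul]
    have h2 : r (δ⁻¹ * γ) (r γ⁻¹ x) = r δ⁻¹ x := by
      rw [← Equiv.Perm.mul_apply, ← map_mul]
      congr 2
      group
    rw [h2]

lemma avg_apply (φ : E →+ (X → A)) (e : E) (x : X) :
    (avg ρ r φ).f e x = ∑ δ : Δ, φ (ρ δ⁻¹ e) (r δ⁻¹ x) := rfl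

lemma avg_equivariant (Λ : EHom ρ (fnAct r A)) (e : E) (x : X) :
    (avg ρ r Λ.f).f e x = Fintype.card Δ • Λ.f e x := by
  rw [avg_apply]
  have h : ∀ δ : Δ, Λ.f (ρ δ⁻¹ e) (r δ⁻¹ x) = Λ.f e x := by
    intro δ
    rw [Λ.comm]
    show Λ.f e (r δ⁻¹⁻¹ (r δ⁻¹ x)) = Λ.f e x
    rw [← Equiv.Perm.mul_apply, ← map_mul, inv_mul_cancel, map_one]
    rfl
  simp only [h, Finset.sum_const, Finset.card_univ]

end avg

section main

variable {Δ : Type} [Group Δ] [Finite Δ] {E : Type} [AddCommGroup E] {X : Type} [Finite X]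
  {ρ : Act Δ E} {r : Δ →* Equiv.Perm X}

/-- **the averaging lemma** -/
theorem exists_equivariant {ι : Type} [Finite ι] (b : Basis ι ℤ E) (hcard : Nat.card ι = Nat.card X)
    (Λ : EHom ρ (fnAct r ℝ)) (hΛ : LinearIndependent ℝ (fun i => Λ.f (b i))) :
    ∃ φ : EHom ρ (fnAct r ℤ), Function.Injective φ.f ∧ Finite ((X → ℤ) ⧸ φ.f.range) := by
  classical
  have : Fintype Δ := Fintype.ofFinite Δ
  have : Fintype ι := Fintype.ofFinite ι
  have : Fintype X := Fintype.ofFinite X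
  rw [Nat.card_eq_fintype_card, Nat.card_eq_fintype_card] at hcard
  let e : ι ≃ X := Fintype.equivOfCardEq hcard
  -- the averaged matrix
  let T : (ι → X → ℝ) → Matrix ι ι ℝ := fun M =>
    Matrix.of fun i j => ∑ δ : Δ, ∑ k, (b.repr (ρ δ⁻¹ (b i)) k : ℝ) * M k (r δ⁻¹ (e j))
  let TZ : (ι → X → ℤ) → Matrix ι ι ℤ := fun M =>
    Matrix.of fun i j => (avg ρ r (b.constr ℤ M).toAddMonoidHom).f (b i) (e j)
  have hTZ : ∀ M : ι → X → ℤ, (TZ M).map (Int.cast : ℤ → ℝ) = T (fun i x => (M i x : ℝ)) := by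
    intro M
    ext i j
    show ((((avg ρ r (b.constr ℤ M).toAddMonoidHom).f (b i) (e j) : ℤ)) : ℝ) = _
    rw [avg_apply, Int.cast_sum]
    refine Finset.sum_congr rfl (fun δ _ => ?_)
    have h1 : (b.constr ℤ M).toAddMonoidHom (ρ δ⁻¹ (b i)) =
        ∑ k, (b.repr (ρ δ⁻¹ (b i)) k) • M k := b.constr_apply_fintype ℤ M _
    rw [h1, Finset.sum_apply, Int.cast_sum]
    refine Finset.sum_congr rfl (fun k _ => ?_)
    rw [Pi.smul_apply, smul_eq_mul, Int.cast_mul]
  have hTΛ : T (fun i => Λ.f (b i)) = (Fintype.card Δ : ℝ) • Matrix.of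
      (fun i j => Λ.f (b i) (e j)) := by
    ext i j
    show ∑ δ : Δ, ∑ k, (b.repr (ρ δ⁻¹ (b i)) k : ℝ) * Λ.f (b k) (r δ⁻¹ (e j)) =
      (Fintype.card Δ : ℝ) * Λ.f (b i) (e j)
    have h1 : ∀ δ : Δ, ∑ k, (b.repr (ρ δ⁻¹ (b i)) k : ℝ) * Λ.f (b k) (r δ⁻¹ (e j)) =
        Λ.f (ρ δ⁻¹ (b i)) (r δ⁻¹ (e j)) := by
      intro δ
      conv_rhs => rw [← b.sum_repr (ρ δ⁻¹ (b i)), map_sum, Finset.sum_apply]
      refine Finset.sum_congr rfl (fun k _ => ?_)
      rw [map_zsmul, Pi.smul_apply, zsmul_eq_mul]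
    simp only [h1]
    have h2 := avg_equivariant ρ r Λ (b i) (e j)
    rw [avg_apply] at h2
    rw [h2, nsmul_eq_mul]
  have hdet : (T (fun i => Λ.f (b i))).det ≠ 0 := by
    rw [hTΛ, Matrix.det_smul]
    refine mul_ne_zero (pow_ne_zero _ (by exact_mod_cast Fintype.card_ne_zero)) ?_
    have h1 : LinearIndependent ℝ (Matrix.of (fun i j => Λ.f (b i) (e j))).row := by
      let L : (X → ℝ) ≃ₗ[ℝ] (ι → ℝ) := LinearEquiv.funCongrLeft ℝ ℝ e
      have := hΛ.map' L.toLinearMap L.ker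
      exact this
    rw [Matrix.linearIndependent_rows_iff_isUnit, Matrix.isUnit_iff_isUnit_det] at h1
    exact h1.ne_zero
  have hcont : Continuous fun M : ι → X → ℝ => (T M).det := by
    apply Continuous.matrix_det
    refine continuous_matrix (fun i j => ?_)
    refine continuous_finsetSum _ (fun δ _ => continuous_finsetSum _ (fun k _ => ?_))
    exact continuous_const.mul ((continuous_apply _).comp (continuous_apply _))
  have hopen : IsOpen {M : ι → X → ℝ | (T M).det ≠ 0} :=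
    isOpen_compl_singleton.preimage hcont
  have hdense : DenseRange (fun Q : ι → X → ℚ => fun i x => (Q i x : ℝ)) := by
    have h1 : DenseRange (Pi.map (fun (_ : ι) => Pi.map (fun (_ : X) => (Rat.cast : ℚ → ℝ)))) :=
      DenseRange.piMap (fun _ => DenseRange.piMap (fun _ => Rat.denseRange_cast))
    exact h1
  obtain ⟨Q, hQ⟩ := hdense.exists_mem_open hopen ⟨_, hdet⟩
  -- clear denominators
  obtain ⟨N, hN0, Z, hZ⟩ : ∃ N : ℤ, N ≠ 0 ∧ ∃ Z : ι → X → ℤ, ∀ i x, (Z i x : ℚ) = N * Q i x := by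
    refine ⟨∏ i, ∏ x, ((Q i x).den : ℤ), ?_, ?_⟩
    · refine Finset.prod_ne_zero_iff.2 (fun i _ => Finset.prod_ne_zero_iff.2 (fun x _ => ?_))
      exact_mod_cast (Q i x).den_nz
    · have h1 : ∀ i x, ∃ z : ℤ, (z : ℚ) = ((∏ i, ∏ x, ((Q i x).den : ℤ) : ℤ) : ℚ) * Q i x := by
        intro i x
        obtain ⟨c, hc⟩ : ((Q i x).den : ℤ) ∣ ∏ i, ∏ x, ((Q i x).den : ℤ) :=
          (Finset.dvd_prod_of_mem (fun x => ((Q i x).den : ℤ)) (Finset.mem_univ x)).trans
            (Finset.dvd_prod_of_mem (fun i => ∏ x, ((Q i x).den : ℤ)) (Finset.mem_univ i))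
        refine ⟨c * (Q i x).num, ?_⟩
        rw [hc]
        push_cast
        have h2 := Rat.mul_den_eq_num (Q i x)
        rw [← h2]
        ring
      choose Z hZ using h1
      exact ⟨Z, hZ⟩
  have hTsmul : T (fun i x => (Z i x : ℝ)) = (N : ℝ) • T (fun i x => (Q i x : ℝ)) := by
    ext i j
    show ∑ δ : Δ, ∑ k, (b.repr (ρ δ⁻¹ (b i)) k : ℝ) * (Z k (r δ⁻¹ (e j)) : ℝ) =
      N * ∑ δ : Δ, ∑ k, (b.repr (ρ δ⁻¹ (b i)) k : ℝ) * (Q k (r δ⁻¹ (e j)) : ℝ)
    rw [Finset.mul_sum]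
    refine Finset.sum_congr rfl (fun δ _ => ?_)
    rw [Finset.mul_sum]
    refine Finset.sum_congr rfl (fun k _ => ?_)
    have h1 : (Z k (r δ⁻¹ (e j)) : ℝ) = N * (Q k (r δ⁻¹ (e j)) : ℝ) := by
      exact_mod_cast congrArg (fun t : ℚ => (t : ℝ)) (hZ k (r δ⁻¹ (e j)))
    rw [h1]
    ring
  have hdetZ : (TZ Z).det ≠ 0 := by
    intro h0
    have h1 : ((TZ Z).map (Int.cast : ℤ → ℝ)).det = 0 := by
      have := RingHom.map_det (Int.castRingHom ℝ) (TZ Z)
      rw [h0, map_zero] at this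
      exact this.symm
    rw [hTZ, hTsmul, Matrix.det_smul] at h1
    rcases mul_eq_zero.1 h1 with h2 | h2
    · exact hN0 (by exact_mod_cast eq_zero_of_pow_eq_zero h2)
    · exact hQ h2
  let φ := avg ρ r (b.constr ℤ Z).toAddMonoidHom
  have hφ : ∀ i j, φ.f (b i) (e j) = TZ Z i j := fun _ _ => rfl
  -- the coordinates of `φ`
  have hcoord : ∀ (c : ι → ℤ) (j : ι), φ.f (∑ i, c i • b i) (e j) = Matrix.vecMul c (TZ Z) j := by
    intro c j
    rw [map_sum, Finset.sum_apply]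
    refine Finset.sum_congr rfl (fun i _ => ?_)
    rw [map_zsmul, Pi.smul_apply, hφ, smul_eq_mul]
  refine ⟨φ, ?_, ?_⟩
  · rw [injective_iff_map_eq_zero]
    intro x hx
    have h1 : Matrix.vecMul (fun i => b.repr x i) (TZ Z) = 0 := by
      ext j
      rw [← hcoord, b.sum_repr, hx]
      rfl
    have h2 := Matrix.eq_zero_of_vecMul_eq_zero hdetZ h1
    apply b.repr.injective
    ext i
    rw [map_zero]
    exact congrFun h2 i
  · have h1 : Module.Finite ℤ ((X → ℤ) ⧸ φ.f.range) :=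
      Module.Finite.of_surjective (QuotientAddGroup.mk' φ.f.range).toIntLinearMap
        (QuotientAddGroup.mk'_surjective _)
    refine Module.finite_of_fg_torsion _ (fun y => ⟨⟨(TZ Z).det,
      mem_nonZeroDivisors_of_ne_zero hdetZ⟩, ?_⟩)
    obtain ⟨f, rfl⟩ := QuotientAddGroup.mk_surjective y
    show (TZ Z).det • (QuotientAddGroup.mk f : (X → ℤ) ⧸ φ.f.range) = 0
    rw [← QuotientAddGroup.mk_zsmul, QuotientAddGroup.eq_zero_iff]
    refine ⟨∑ i, (Matrix.vecMul (fun j => f (e j)) (TZ Z).adjugate) i • b i, ?_⟩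
    ext x
    obtain ⟨j, rfl⟩ := e.surjective x
    rw [hcoord, Matrix.vecMul_vecMul, Matrix.adjugate_mul, Matrix.vecMul_smul, Matrix.vecMul_one]
    rfl

omit [Finite Δ] in
/-- values of integral permutation modules -/
theorem AInv.HH_fnAct {p : ℕ} [hp : Fact p.Prime] (I : AInv p Δ) (r : Δ →* Equiv.Perm X) :
    I.HH (fnAct r ℤ) = I.h (fnAct r (ZMod p)) := by
  rw [I.HH_of_torsionfree]
  · congr 1
    let cst : (X → ℤ) →+ (X → ZMod p) :=
      { toFun := fun f x => (f x : ZMod p)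
        map_zero' := by ext x; simp
        map_add' := fun f g => by ext x; simp }
    have hker : (nsmulAddMonoidHom p : (X → ℤ) →+ (X → ℤ)).range ≤ cst.ker := by
      rintro _ ⟨f, rfl⟩
      rw [AddMonoidHom.mem_ker]
      ext x
      show ((p • f x : ℤ) : ZMod p) = 0
      rw [nsmul_eq_mul, Int.cast_mul, Int.cast_natCast, CharP.cast_eq_zero, zero_mul]
    refine I.h_bij (ρ := modAct p (fnAct r ℤ)) (σ := fnAct r (ZMod p))
      ⟨QuotientAddGroup.lift _ cst hker, ?_⟩ ⟨?_, ?_⟩ inferInstance ?_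
    · intro g f
      obtain ⟨f, rfl⟩ := QuotientAddGroup.mk_surjective f
      exact rfl
    · rw [injective_iff_map_eq_zero]
      intro f hf
      obtain ⟨f, rfl⟩ := QuotientAddGroup.mk_surjective f
      rw [QuotientAddGroup.eq_zero_iff]
      have h1 : ∀ x, ∃ c : ℤ, f x = p * c := by
        intro x
        have h2 : ((f x : ℤ) : ZMod p) = 0 := congrFun hf x
        exact (ZMod.intCast_zmod_eq_zero_iff_dvd _ _).1 h2
      choose c hc using h1
      refine ⟨c, ?_⟩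
      ext x
      show p • c x = f x
      rw [hc, nsmul_eq_mul]
    · intro f
      refine ⟨QuotientAddGroup.mk (fun x => ((f x).val : ℤ)), ?_⟩
      ext x
      show (((f x).val : ℤ) : ZMod p) = f x
      rw [Int.cast_natCast, ZMod.natCast_zmod_val]
    · intro f
      ext x
      show p • f x = 0
      rw [nsmul_eq_mul, CharP.cast_eq_zero, zero_mul]
  · intro f hf
    ext x
    have h1 : p • f x = 0 := congrFun hf x
    rw [nsmul_eq_mul] at h1
    rcases mul_eq_zero.1 h1 with h | h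
    · exact absurd h (by exact_mod_cast hp.out.ne_zero)
    · exact h

/-- the averaging lemma for additive invariants -/
theorem AInv.HH_eq_of_log {p : ℕ} [hp : Fact p.Prime] (I : AInv p Δ) {ι : Type} [Finite ι]
    (b : Basis ι ℤ E) (hcard : Nat.card ι = Nat.card X) (Λ : EHom ρ (fnAct r ℝ))
    (hΛ : LinearIndependent ℝ (fun i => Λ.f (b i))) : I.HH ρ = I.h (fnAct r (ZMod p)) := by
  obtain ⟨φ, h1, h2⟩ := exists_equivariant b hcard Λ hΛ
  have : Module.Finite ℤ E := Module.Finite.of_basis b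
  rw [I.HH_of_inj φ h1 h2 (fgp_of_fg hp.out.ne_zero) (fgp_of_fg hp.out.ne_zero), I.HH_fnAct]

end main

end Fermat.Agent.Units
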