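import Fermat.Agent.Units.Avg
import Fermat.Agent.CFT6.KSIndex

/-!
# The unit theorem, equivariantly
-/

set_option autoImplicit false

open Module NumberField NumberField.InfinitePlace

namespace Fermat.Agent.Units

open Fermat.Agent.PT Fermat.Agent.CFT Fermat.Agent.CFT6

section gen

variable {Δ : Type} [Group Δ] {A B : Type} [AddCommGroup A] [AddCommGroup B]

/-- product action -/
def prodAct (ρ : Act Δ A) (σ : Act Δ B) : Act Δ (A × B) where
  toFun g := (ρ g).prodMap (σ g)
  map_one' := by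
    ext x
    · show ρ 1 _ = _
      rw [act_one]; rfl
    · show σ 1 _ = _
      rw [act_one]; rfl
  map_mul' g h := by
    ext x
    · show ρ (g * h) _ = ρ g (ρ h _)
      rw [act_mul]
    · show σ (g * h) _ = σ g (σ h _)
      rw [act_mul]

/-- the split sequence -/
def prodSES (ρ : Act Δ A) (σ : Act Δ B) : SES ρ (prodAct ρ σ) σ where
  i := ⟨AddMonoidHom.inl A B, fun g a => Prod.ext rfl (map_zero (σ g)).symm⟩
  p := ⟨AddMonoidHom.snd A B, fun _ _ => rfl⟩
  inj a b h := congrArg Prod.fst h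
  surj b := ⟨(0, b), rfl⟩
  exact b := by
    constructor
    · intro h
      exact ⟨b.1, Prod.ext rfl h.symm⟩
    · rintro ⟨a, rfl⟩
      rfl

lemma AInv.HH_trivInt {p : ℕ} [hp : Fact p.Prime] (I : AInv p Δ) :
    I.HH (trivAct Δ ℤ) = I.h (trivAct Δ (ZMod p)) := by
  have h1 : I.HH (trivAct Δ ℤ) = I.HH (fnAct (1 : Δ →* Equiv.Perm PUnit) ℤ) :=
    I.HH_congr ⟨(AddEquiv.funUnique PUnit ℤ).symm, fun _ _ => rfl⟩ (fgp_of_fg hp.out.ne_zero)
      (fgp_of_fg hp.out.ne_zero)
  have h2 : I.h (fnAct (1 : Δ →* Equiv.Perm PUnit) (ZMod p)) = I.h (trivAct Δ (ZMod p)) :=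
    I.h_congr ⟨AddEquiv.funUnique PUnit (ZMod p), fun _ _ => rfl⟩ inferInstance (fun b => by
      rw [nsmul_eq_mul, CharP.cast_eq_zero, zero_mul])
  rw [h1, I.HH_fnAct, h2]

/-- the averaging lemma, spanning form -/
theorem AInv.HH_eq_of_span {p : ℕ} [hp : Fact p.Prime] [Finite Δ] (I : AInv p Δ) {X : Type}
    [Finite X] {r : Δ →* Equiv.Perm X} {ρ : Act Δ A} [Module.Finite ℤ A]
    (Λ : EHom ρ (fnAct r ℝ)) (hker : Finite Λ.f.ker) (hrk : finrank ℤ A = Nat.card X)
    (hspan : ⊤ ≤ Submodule.span ℝ (Set.range Λ.f)) : I.HH ρ = I.h (fnAct r (ZMod p)) := by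
  have : Fintype X := Fintype.ofFinite X
  have hfin : Module.Finite ℤ Λ.f.range :=
    Module.Finite.of_surjective Λ.f.rangeRestrict.toIntLinearMap
      (AddMonoidHom.rangeRestrict_surjective _)
  have htf : IsAddTorsionFree (X → ℝ) := inferInstance
  have htf' : IsAddTorsionFree Λ.f.range :=
    Function.Injective.isAddTorsionFree Λ.f.range.subtype Subtype.val_injective
  have hfree : Module.Free ℤ Λ.f.range := by
    exact Module.free_of_finite_type_torsion_free'
  have hrk' : finrank ℤ Λ.f.range = Nat.card X := by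
    rw [← hrk]
    have h1 := Submodule.finrank_quotient_add_finrank (Λ.f.toIntLinearMap.ker)
    have h2 : finrank ℤ Λ.f.toIntLinearMap.ker = 0 := by
      have hfk : Finite Λ.f.toIntLinearMap.ker := hker
      rw [Module.finrank_eq_zero_iff_isTorsion]
      intro x
      refine ⟨⟨(Nat.card Λ.f.toIntLinearMap.ker : ℤ), mem_nonZeroDivisors_of_ne_zero
        (by exact_mod_cast Nat.card_pos.ne')⟩, ?_⟩
      show (Nat.card Λ.f.toIntLinearMap.ker : ℤ) • x = 0
      rw [natCast_zsmul]
      exact card_nsmul_eq_zero'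
    rw [h2, add_zero, (Λ.f.toIntLinearMap).quotKerEquivRange.finrank_eq] at h1
    rw [← h1]
    rfl
  let ι : EHom (rangeAct Λ) (fnAct r ℝ) := ⟨Λ.f.range.subtype, fun _ _ => rfl⟩
  have h3 : I.HH ρ = I.HH (rangeAct Λ) :=
    I.HH_of_surj (toRange Λ) (AddMonoidHom.rangeRestrict_surjective _) (by
      have : (toRange Λ).f.ker = Λ.f.ker := AddMonoidHom.ker_rangeRestrict Λ.f
      rw [this]; exact hker) (fgp_of_fg hp.out.ne_zero) (fgp_of_fg hp.out.ne_zero)
  rw [h3]
  let b := Module.finBasis ℤ Λ.f.range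
  have hcard : Nat.card (Fin (finrank ℤ Λ.f.range)) = Nat.card X := by
    rw [Nat.card_eq_fintype_card, Fintype.card_fin, hrk']
  refine I.HH_eq_of_log b hcard ι ?_
  apply linearIndependent_of_top_le_span_of_card_eq_finrank
  · refine hspan.trans (Submodule.span_le.2 ?_)
    rintro _ ⟨e, rfl⟩
    have h4 : Λ.f e = ι.f ⟨Λ.f e, e, rfl⟩ := rfl
    rw [h4, ← b.sum_repr ⟨Λ.f e, e, rfl⟩, map_sum]
    refine Submodule.sum_mem _ (fun i _ => ?_)
    rw [map_zsmul, ← Int.cast_smul_eq_zsmul ℝ]
    exact Submodule.smul_mem _ _ (Submodule.subset_span ⟨i, rfl⟩)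
  · rw [Fintype.card_fin, hrk', Module.finrank_fintype_fun_eq_card, Nat.card_eq_fintype_card]

end gen

section field

variable {Δ : Type} [Group Δ] {K : Type} [Field K] (a : Δ →* (K ≃+* K))

/-- the action on `S`-units -/
def sAct (S : Finset Nat.Primes) : Act Δ (Additive (SUnits K S)) where
  toFun δ := MonoidHom.toAdditive (((Units.map (a δ : K →* K)).comp (SUnits K S).subtype).codRestrict
    (SUnits K S) (fun x => by
      intro q hq φ
      exact x.2 q hq (φ.comp (a δ : K →+* K))))
  map_one' := by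
    ext x
    show a 1 _ = _
    rw [map_one]; rfl
  map_mul' g h := by
    ext x
    show a (g * h) _ = a g (a h _)
    rw [map_mul]; rfl

lemma sAct_coe (S : Finset Nat.Primes) (δ : Δ) (x : Additive (SUnits K S)) :
    (((Additive.toMul (sAct a S δ x) : SUnits K S) : Kˣ) : K) =
      a δ (((Additive.toMul x : SUnits K S) : Kˣ) : K) := rfl

/-- the action on infinite places -/
def rInf : Δ →* Equiv.Perm (InfinitePlace K) where
  toFun δ :=
    { toFun := fun w => w.comap (a δ⁻¹ : K →+* K)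
      invFun := fun w => w.comap (a δ : K →+* K)
      left_inv := fun w => by
        ext x
        show w (a δ⁻¹ (a δ x)) = w x
        congr 1
        have : (a δ⁻¹ * a δ) x = x := by rw [← map_mul, inv_mul_cancel, map_one]; rfl
        exact this
      right_inv := fun w => by
        ext x
        show w (a δ (a δ⁻¹ x)) = w x
        congr 1
        have : (a δ * a δ⁻¹) x = x := by rw [← map_mul, mul_inv_cancel, map_one]; rfl
        exact this }
  map_one' := by
    ext w x
    show w (a 1⁻¹ x) = w x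
    rw [inv_one, map_one]; rfl
  map_mul' g h := by
    ext w x
    show w (a (g * h)⁻¹ x) = w (a h⁻¹ (a g⁻¹ x))
    rw [mul_inv_rev, map_mul]; rfl

lemma rInf_apply (δ : Δ) (w : InfinitePlace K) (x : K) : rInf a δ w x = w (a δ⁻¹ x) := rfl

/-- logarithms at infinity of units -/
noncomputable def logInf : EHom (sAct a ∅) (fnAct (rInf a) ℝ) where
  f :=
    { toFun := fun x w => Real.log (w (((Additive.toMul x : SUnits K ∅) : Kˣ) : K))
      map_zero' := by
        ext w
        show Real.log (w ((1 : Kˣ) : K)) = 0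
        rw [Units.val_one, map_one, Real.log_one]
      map_add' := fun x y => by
        ext w
        show Real.log (w (((Additive.toMul x * Additive.toMul y : SUnits K ∅) : Kˣ) : K)) = _
        rw [Subgroup.coe_mul, Units.val_mul, map_mul, Real.log_mul]
        · rfl
        · exact (map_ne_zero w).2 (Units.ne_zero _)
        · exact (map_ne_zero w).2 (Units.ne_zero _) }
  comm δ x := by
    ext w
    show Real.log (w (a δ _)) = Real.log (rInf a δ⁻¹ w _)
    rw [rInf_apply, inv_inv]
    rfl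

lemma logInf_apply (x : Additive (SUnits K ∅)) (w : InfinitePlace K) :
    (logInf a).f x w = Real.log (w (((Additive.toMul x : SUnits K ∅) : Kˣ) : K)) := rfl

variable [NumberField K]

/-- units of the ring of integers are `∅`-units -/
noncomputable def ofUnit (u : (𝓞 K)ˣ) : SUnits K ∅ :=
  ⟨Units.map (algebraMap (𝓞 K) K : 𝓞 K →* K) u, fun q _ φ => by
    have h : ∀ u : (𝓞 K)ˣ, ‖φ ((u : 𝓞 K) : K)‖ ≤ 1 := fun u => norm_embedding_le_one φ _
    apply le_antisymm (h u)
    have h1 : ‖φ ((u : 𝓞 K) : K)‖ * ‖φ (((u⁻¹ : (𝓞 K)ˣ) : 𝓞 K) : K)‖ = 1 := by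
      rw [← norm_mul, ← map_mul, ← map_mul, Units.mul_inv, map_one, map_one, norm_one]
    have h2 := h u⁻¹
    have h3 : 0 ≤ ‖φ ((u : 𝓞 K) : K)‖ := norm_nonneg _
    show 1 ≤ ‖φ ((u : 𝓞 K) : K)‖
    nlinarith⟩

omit [NumberField K] in
lemma ofUnit_coe (u : (𝓞 K)ˣ) : ((ofUnit u : Kˣ) : K) = ((u : 𝓞 K) : K) := rfl

lemma exists_ofUnit (x : SUnits K ∅) : ∃ u : (𝓞 K)ˣ, ofUnit u = x := by
  have hx : (x : Kˣ) ∈ (above K ∅).unit K := by
    rw [← SUnits_eq]; exact x.2
  obtain ⟨u, hu⟩ := mem_of_ker (above K ∅) (x := Additive.ofMul ⟨(x : Kˣ), hx⟩) (by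
    funext v
    obtain ⟨q, hq, _⟩ := v.2
    exact absurd hq (Finset.notMem_empty q))
  exact ⟨u, Subtype.ext (Units.ext hu)⟩

/-- the extended logarithm -/
noncomputable def logOne : EHom (prodAct (sAct a ∅) (trivAct Δ ℤ)) (fnAct (rInf a) ℝ) where
  f := (logInf a).f.comp (AddMonoidHom.fst _ _) +
    ({ toFun := fun (n : ℤ) (_ : InfinitePlace K) => (n : ℝ)
       map_zero' := by ext; simp
       map_add' := fun m n => by ext; simp } : ℤ →+ (InfinitePlace K → ℝ)).comp
      (AddMonoidHom.snd _ _)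
  comm δ x := by
    show (logInf a).f (sAct a ∅ δ x.1) + (fun _ => (x.2 : ℝ)) =
      fnAct (rInf a) ℝ δ ((logInf a).f x.1 + (fun _ => (x.2 : ℝ)))
    rw [(logInf a).comm, map_add]
    rfl

omit [NumberField K] in
lemma logOne_apply (x : Additive (SUnits K ∅)) (n : ℤ) (w : InfinitePlace K) :
    (logOne a).f (x, n) w = Real.log (w (((Additive.toMul x : SUnits K ∅) : Kˣ) : K)) + n := rfl

lemma sum_log (u : (𝓞 K)ˣ) : ∑ w : InfinitePlace K, (mult w : ℝ) * Real.log (w ((u : 𝓞 K) : K)) = 0 :=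
  Units.sum_mult_mul_log u

lemma finite_ker_logOne : Finite (logOne a).f.ker := by
  have key : ∀ z : (logOne a).f.ker, (z : Additive (SUnits K ∅) × ℤ).2 = 0 ∧
      ∃ u ∈ Units.torsion K, (z : Additive (SUnits K ∅) × ℤ).1 = Additive.ofMul (ofUnit u) := by
    rintro ⟨⟨x, n⟩, hz⟩
    obtain ⟨u, hu⟩ := exists_ofUnit (Additive.toMul x)
    have h1 : ∀ w : InfinitePlace K, Real.log (w ((u : 𝓞 K) : K)) = -n := by
      intro w
      have h2 : (logOne a).f (x, n) w = 0 := congrFun hz w
      rw [logOne_apply, ← hu] at h2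
      have h3 : Real.log (w ((ofUnit u : Kˣ) : K)) = Real.log (w ((u : 𝓞 K) : K)) := rfl
      rw [h3] at h2
      linarith
    have h2 := sum_log u
    simp only [h1, ← Finset.sum_mul] at h2
    have h3 : (0 : ℝ) < ∑ w : InfinitePlace K, (mult w : ℝ) := by
      refine Finset.sum_pos (fun w _ => ?_) Finset.univ_nonempty
      exact_mod_cast mult_pos
    have h4 : (n : ℝ) = 0 := by
      rcases mul_eq_zero.1 h2 with h | h
      · exact absurd h h3.ne'
      · linarith
    refine ⟨by exact_mod_cast h4, u, ?_, ?_⟩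
    · rw [Units.mem_torsion]
      intro w
      have h5 := h1 w
      rw [h4, neg_zero, Real.log_eq_zero] at h5
      have h6 : 0 < w ((u : 𝓞 K) : K) := Units.pos_at_place _ _
      rcases h5 with h | h | h
      · exact absurd h h6.ne'
      · exact h
      · linarith
    · rw [hu]; rfl
  have hinj : Function.Injective (fun z : (logOne a).f.ker =>
      (⟨(key z).2.choose, (key z).2.choose_spec.1⟩ : Units.torsion K)) := by
    intro z z' h
    apply Subtype.ext
    apply Prod.ext
    · rw [(key z).2.choose_spec.2, (key z').2.choose_spec.2]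
      have := congrArg Subtype.val h
      exact congrArg (fun u => Additive.ofMul (ofUnit u)) this
    · rw [(key z).1, (key z').1]
  exact Finite.of_injective _ hinj

open Units.dirichletUnitTheorem in
lemma span_logOne : ⊤ ≤ Submodule.span ℝ (Set.range (logOne a).f) := by
  classical
  set W := Submodule.span ℝ (Set.range (logOne a).f) with hW
  -- the map to the log space
  let π : (InfinitePlace K → ℝ) →ₗ[ℝ] logSpace K :=
    { toFun := fun x w => (mult w.1 : ℝ) * x w.1
      map_add' := fun x y => by ext w; simp [mul_add]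
      map_smul' := fun c x => by ext w; simp; ring }
  let ℓ : (InfinitePlace K → ℝ) →ₗ[ℝ] ℝ :=
    { toFun := fun x => ∑ w, (mult w : ℝ) * x w
      map_add' := fun x y => by simp [mul_add, Finset.sum_add_distrib]
      map_smul' := fun c x => by
        simp only [Pi.smul_apply, smul_eq_mul, RingHom.id_apply, Finset.mul_sum]
        refine Finset.sum_congr rfl (fun w _ => by ring) }
  let lg : (𝓞 K)ˣ → (InfinitePlace K → ℝ) := fun u w => Real.log (w ((u : 𝓞 K) : K))
  have hlgW : ∀ u, lg u ∈ W := by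
    intro u
    refine Submodule.subset_span ⟨(Additive.ofMul (ofUnit u), 0), ?_⟩
    ext w
    rw [logOne_apply, Int.cast_zero, add_zero]
    rfl
  have hone : (fun _ => (1 : ℝ)) ∈ W := by
    refine Submodule.subset_span ⟨(0, 1), ?_⟩
    ext w
    rw [logOne_apply, Int.cast_one]
    show Real.log (w ((1 : Kˣ) : K)) + 1 = 1
    rw [Units.val_one, map_one, Real.log_one, zero_add]
  let W₁ := Submodule.span ℝ (Set.range lg)
  have hW₁ : W₁ ≤ W := Submodule.span_le.2 (by rintro _ ⟨u, rfl⟩; exact hlgW u)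
  have hℓ : ∀ y ∈ W₁, ℓ y = 0 := by
    intro y hy
    have : W₁ ≤ ℓ.ker := Submodule.span_le.2 (by rintro _ ⟨u, rfl⟩; exact sum_log u)
    exact this hy
  have hπ : ∀ x, ∃ y ∈ W₁, π y = π x := by
    intro x
    have h1 : π x ∈ (⊤ : Submodule ℝ (logSpace K)) := trivial
    rw [← unitLattice_span_eq_top K] at h1
    have h2 : Submodule.span ℝ (Units.unitLattice K : Set (logSpace K)) ≤ W₁.map π := by
      rw [Submodule.span_le]
      rintro _ ⟨u, _, rfl⟩
      exact ⟨lg (Additive.toMul u), Submodule.subset_span ⟨_, rfl⟩, rfl⟩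
    obtain ⟨y, hy, hy'⟩ := h2 h1
    exact ⟨y, hy, hy'⟩
  have hker : ∀ x, π x = 0 → x = Pi.single w₀ (x w₀) := by
    intro x hx
    ext w
    by_cases hw : w = w₀
    · subst hw; simp
    · rw [Pi.single_eq_of_ne hw]
      have h1 : (mult w : ℝ) * x w = 0 := congrFun hx ⟨w, hw⟩
      rcases mul_eq_zero.1 h1 with h | h
      · exact absurd h mult_coe_ne_zero
      · exact h
  have hsing : ∀ t : ℝ, (Pi.single w₀ t : InfinitePlace K → ℝ) ∈ W := by
    obtain ⟨y, hy, hy'⟩ := hπ (fun _ => (1 : ℝ))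
    have h1 := hker ((fun _ => (1 : ℝ)) - y) (by rw [map_sub, hy', sub_self])
    change (fun _ => (1 : ℝ)) - y = Pi.single w₀ (1 - y w₀) at h1
    set s : ℝ := 1 - y w₀ with hs
    have h2 : s ≠ 0 := by
      intro h0
      rw [h0, Pi.single_zero, sub_eq_zero] at h1
      have h3 := hℓ y hy
      rw [← h1] at h3
      have h4 : ∑ w : InfinitePlace K, (mult w : ℝ) * 1 = 0 := h3
      have h5 : (0 : ℝ) < ∑ w : InfinitePlace K, (mult w : ℝ) * 1 := by
        refine Finset.sum_pos (fun w _ => ?_) Finset.univ_nonempty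
        rw [mul_one]
        exact_mod_cast mult_pos
      exact absurd h4 h5.ne'
    have h3 : (Pi.single w₀ s : InfinitePlace K → ℝ) ∈ W := by
      rw [← h1]
      exact W.sub_mem hone (hW₁ hy)
    intro t
    have h4 := W.smul_mem (t / s) h3
    have h5 : (t / s) • (Pi.single w₀ s : InfinitePlace K → ℝ) = Pi.single w₀ t := by
      rw [← Pi.single_smul, smul_eq_mul, div_mul_cancel₀ _ h2]
    rwa [h5] at h4
  intro x _
  obtain ⟨y, hy, hy'⟩ := hπ x
  have h1 := hker (x - y) (by rw [map_sub, hy', sub_self])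
  have h2 : x = y + Pi.single w₀ ((x - y) w₀) := by rw [← h1]; abel
  rw [h2]
  exact W.add_mem (hW₁ hy) (hsing _)

/-- **the unit theorem**, equivariantly -/
theorem AInv.HH_units {p : ℕ} [hp : Fact p.Prime] [Finite Δ] (I : AInv p Δ) :
    I.HH (sAct a ∅) * I.h (trivAct Δ (ZMod p)) = I.h (fnAct (rInf a) (ZMod p)) := by
  have hfin : Module.Finite ℤ (Additive (SUnits K ∅)) := inferInstance
  have h1 := I.HH_mul (prodSES (sAct a ∅) (trivAct Δ ℤ)) (fgp_of_fg hp.out.ne_zero)
    (fgp_of_fg hp.out.ne_zero) (fgp_of_fg hp.out.ne_zero)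
  rw [I.HH_trivInt] at h1
  rw [← h1]
  refine I.HH_eq_of_span (logOne a) (finite_ker_logOne a) ?_ (span_logOne a)
  have h2 := Submodule.finrank_quotient_add_finrank
    (LinearMap.snd ℤ (Additive (SUnits K ∅)) ℤ).ker
  rw [(LinearMap.snd ℤ (Additive (SUnits K ∅)) ℤ).quotKerEquivRange.finrank_eq,
    LinearMap.ker_snd, LinearMap.finrank_range_of_inj LinearMap.inl_injective,
    LinearMap.range_eq_top.2 LinearMap.snd_surjective, finrank_top, Module.finrank_self, finrank_SUnits, Finset.sum_empty, add_zero] at h2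
  rw [← h2, Nat.card_eq_fintype_card]
  unfold Units.rank
  have : 0 < Fintype.card (InfinitePlace K) := Fintype.card_pos
  omega

end field

end Fermat.Agent.Units
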