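import Fermat.Agent.Units.Kum

/-!
# Comparison of the permutation modules
-/

set_option autoImplicit false

open scoped Pointwise NumberField
open NumberField

namespace Fermat.Agent.Units

open Fermat.Agent.PT Fermat.Agent.PTLocal Fermat.Agent.PTGlob Fermat.Agent.CFT Fermat.Agent.CFT6
  Fermat.Agent.PTC

-- the frozen algebra structure on `ℚ̄`, and the induced ones on subfields
attribute [-instance] DivisionRing.toRatAlgebra
noncomputable local instance instAlgebraQb12 : Algebra ℚ (AlgebraicClosure ℚ) :=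
  DivisionRing.toRatAlgebra

variable {S : Finset Nat.Primes} {p : ℕ} [hp : Fact p.Prime] {U V : Subgroup GQ} (hUV : U ≤ V)
  [hN : (U.subgroupOf V).Normal] (hU : IsOpenSub (sL S) U)

/-! ### torsion -/

/-- `S`-units to `H⁰` -/
noncomputable def kapSE : EHom (sAct (aD hUV hU) S) (rtH0 U V hUV (lgSL S).act) where
  f := (kap0 hU).comp (MonoidHom.toAdditive (SUnits (lgV hU).E S).subtype)
  comm δ x := by
    apply Subtype.ext
    funext z
    exact kapF_rt hUV hU δ ((Additive.toMul x : SUnits (lgV hU).E S) : (lgV hU).Eˣ) z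

variable {ζ : OmS S} (hζ : IsPrimitiveRoot ζ p)

/-- `H⁰(Map(G/U, μ_p))` to the torsion of `H⁰(Map(G/U, Ωˣ))` -/
noncomputable def muTor : EHom (rtH0 U V hUV (muA p)) (torAct p (rtH0 U V hUV (lgSL S).act)) where
  f := (((muG hζ).mapX (cosetAct U)).h0).codRestrict _ (fun f => by
    rw [AddMonoidHom.mem_ker]
    show p • (((muG hζ).mapX (cosetAct U)).h0 f) = 0
    rw [← map_nsmul]
    have : p • f = 0 := by
      apply Subtype.ext
      funext z
      show p • ((f : GQ ⧸ U → ZMod p) z) = 0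
      rw [nsmul_eq_mul, CharP.cast_eq_zero, zero_mul]
    rw [this, map_zero])
  comm _ _ := rfl

lemma h_tor_SUnits (I : AInv p (V ⧸ U.subgroupOf V)) (hpS : ExtCitation.pPrime p ∈ S) :
    I.h (torAct p (sAct (aD hUV hU) S)) = I.h (rtH0 U V hUV (muA p)) := by
  obtain ⟨ζ, hζ⟩ := exists_zeta (S := S) hpS
  have hsurj : Function.Surjective (torHom p (kapSE hUV hU)).f := by
    rintro ⟨y, hy⟩
    obtain ⟨t, rfl⟩ := kap0_surjective hU y
    have h1 : p • kap0 hU t = 0 := hy
    rw [← map_nsmul] at h1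
    have h2 : p • t = 0 := kap0_injective hU (h1.trans (map_zero _).symm)
    have h2' : (Additive.toMul t) ^ p = 1 := congrArg Additive.toMul h2
    have h3 : Additive.toMul t ∈ SUnits (lgV hU).E S := by
      intro q hq φ
      have h4 : ‖φ ((Additive.toMul t : (lgV hU).Eˣ) : (lgV hU).E)‖ ^ p = 1 := by
        rw [← norm_pow, ← map_pow, ← Units.val_pow_eq_pow_val, h2', Units.val_one, map_one,
          norm_one]
      exact (pow_eq_one_iff_of_nonneg (norm_nonneg _) hp.out.ne_zero).1 h4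
    refine ⟨⟨Additive.ofMul ⟨_, h3⟩, ?_⟩, rfl⟩
    rw [AddMonoidHom.mem_ker]
    exact congrArg Additive.ofMul (Subtype.ext h2' : (⟨_, h3⟩ : SUnits (lgV hU).E S) ^ p = 1)
  have hfin := (fgp_of_fg (B := Additive (SUnits (lgV hU).E S)) hp.out.ne_zero).2
  have hfin' := Finite.of_surjective _ hsurj
  have e1 : I.h (torAct p (sAct (aD hUV hU) S)) = I.h (torAct p (rtH0 U V hUV (lgSL S).act)) := by
    refine I.h_bij (torHom p (kapSE hUV hU)) ⟨?_, hsurj⟩ hfin' tor_nsmul
    intro x y h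
    apply Subtype.ext
    have h1 := kap0_injective hU (congrArg Subtype.val h)
    have h2 : ((Additive.toMul (x : Additive (SUnits (lgV hU).E S)) : SUnits (lgV hU).E S) :
        (lgV hU).Eˣ) = (Additive.toMul (y : Additive (SUnits (lgV hU).E S)) :
          SUnits (lgV hU).E S) := h1
    exact congrArg Additive.ofMul (Subtype.ext h2)
  rw [e1]
  symm
  refine I.h_bij (muTor hUV hζ) ⟨?_, ?_⟩ hfin' tor_nsmul
  · intro x y h
    exact ((kumG hζ).mapX (cosetAct U)).inj_H0 (congrArg Subtype.val h)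
  · rintro ⟨y, hy⟩
    obtain ⟨x, hx⟩ := (((kumG hζ).mapX (cosetAct U)).exact_H0_left y).1 (by
      apply Subtype.ext
      funext z
      apply Subtype.ext
      have h1 : p • y = 0 := hy
      exact congrFun (congrArg Subtype.val h1) z)
    exact ⟨x, Subtype.ext hx⟩

/-! ### permutation modules -/

lemma h_inv_top (I : AInv p (V ⧸ U.subgroupOf V)) :
    I.h (rtInv U V hUV p ⊤) = I.h (trivAct (V ⧸ U.subgroupOf V) (ZMod p)) := by
  let D : EHom (rtInv U V hUV p ⊤) (trivAct (V ⧸ U.subgroupOf V) (ZMod p)) :=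
    { f := (Pi.evalAddMonoidHom _ ((1 : GQ) : GQ ⧸ U)).comp (invM U p ⊤).subtype
      comm := fun δ f => by
        obtain ⟨v, rfl⟩ := QuotientGroup.mk_surjective δ
        have h1 := f.2 (v : GQ) trivial ((1 : GQ) : GQ ⧸ U)
        rw [cosetAct_mk, mul_one] at h1
        show (f : GQ ⧸ U → ZMod p) (rtFun U V hUV v ((1 : GQ) : GQ ⧸ U)) =
          (f : GQ ⧸ U → ZMod p) ((1 : GQ) : GQ ⧸ U)
        rw [rtFun_mk, one_mul, h1] }
  refine I.h_bij D ⟨?_, ?_⟩ inferInstance (fun b => by
    rw [nsmul_eq_mul, CharP.cast_eq_zero, zero_mul])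
  · intro f g h
    apply Subtype.ext
    funext z
    obtain ⟨x, rfl⟩ := QuotientGroup.mk_surjective z
    have h1 := f.2 x trivial ((1 : GQ) : GQ ⧸ U)
    have h2 := g.2 x trivial ((1 : GQ) : GQ ⧸ U)
    rw [cosetAct_mk, mul_one] at h1 h2
    rw [h1, h2]
    exact h
  · intro c
    exact ⟨⟨fun _ => c, fun _ _ _ => rfl⟩, rfl⟩

lemma cosetEmb_rt (q : Nat.Primes) (δ : V ⧸ U.subgroupOf V) (z : GQ ⧸ U) :
    cosetEmb hU q (rtFun U V hUV δ z) =
      (cosetEmb hU q z).comp (aD hUV hU δ : (lgV hU).E →+* (lgV hU).E) := by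
  obtain ⟨g, rfl⟩ := QuotientGroup.mk_surjective z
  obtain ⟨v, rfl⟩ := QuotientGroup.mk_surjective δ
  rw [rtFun_mk, cosetEmb_mk, cosetEmb_mk]
  ext x
  show e0 q (g ((v : GQ) (ιE (lgV hU) x))) = e0 q (g (ιE (lgV hU) (aV hUV hU v x)))
  have h1 : ιE (lgV hU) (aV hUV hU v x) = (v : GQ) (ιE (lgV hU) x) := jS_apply (v : GQ) _
  rw [h1]

lemma h_inv_loc (I : AInv p (V ⧸ U.subgroupOf V)) (q : Nat.Primes) :
    I.h (rtInv U V hUV p (ExtCitation.primeLocalToGlobal q).range) =
      I.h (fnAct (rq (aD hUV hU) q) (ZMod p)) := by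
  have hbij := cosetEmb_bijective hU q
  let e : GQ ⧸ U ≃ Emb (lgV hU).E q := Equiv.ofBijective _ hbij
  let D : EHom (fnAct (rq (aD hUV hU) q) (ZMod p))
      (rtInv U V hUV p (ExtCitation.primeLocalToGlobal q).range) :=
    { f :=
        { toFun := fun k => ⟨fun z => k (Quotient.mk _ (cosetEmb hU q z)), by
            rintro _ ⟨τ, rfl⟩ z
            refine congrArg k (Quotient.sound ⟨τ, ?_⟩)
            exact (cosetEmb_smul hU q τ z).symm⟩
          map_zero' := rfl
          map_add' := fun _ _ => rfl }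
      comm := fun δ k => by
        apply Subtype.ext
        funext z
        show k (rq (aD hUV hU) q δ⁻¹ (Quotient.mk _ (cosetEmb hU q z))) =
          k (Quotient.mk _ (cosetEmb hU q (rtFun U V hUV δ z)))
        rw [rq_mk, inv_inv, cosetEmb_rt hUV hU] }
  symm
  have hfi := hU.finiteIndex
  have hfin : Finite (GQ ⧸ U) := inferInstance
  refine I.h_bij D ⟨?_, ?_⟩ (Finite.of_injective _ Subtype.val_injective) ?_
  · intro k k' h
    funext o
    obtain ⟨φ, rfl⟩ := Quotient.exists_rep o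
    obtain ⟨z, rfl⟩ := hbij.2 φ
    exact congrFun (congrArg Subtype.val h) z
  · rintro ⟨f, hf⟩
    refine ⟨Quotient.lift (fun φ => f (e.symm φ)) ?_, ?_⟩
    · rintro φ φ' ⟨τ, hτ⟩
      obtain ⟨z, rfl⟩ := e.surjective φ'
      have h1 : φ = cosetEmb hU q (cosetAct U (localGaloisToGlobal (q : ℕ) τ) z) := by
        rw [cosetEmb_smul, ← hτ]; rfl
      have h2 : e.symm φ = cosetAct U (localGaloisToGlobal (q : ℕ) τ) z := by
        rw [h1]; exact e.symm_apply_apply _
      show f (e.symm φ) = f (e.symm (e z))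
      rw [h2, Equiv.symm_apply_apply]
      exact hf _ ⟨τ, rfl⟩ z
    · apply Subtype.ext
      funext z
      show f (e.symm (e z)) = f z
      rw [Equiv.symm_apply_apply]
  · intro f
    apply Subtype.ext
    funext z
    show p • ((f : GQ ⧸ U → ZMod p) z) = 0
    rw [nsmul_eq_mul, CharP.cast_eq_zero, zero_mul]

/-! ### the infinite places -/

/-- embeddings in `ℂ` extend to `ℚ̄` -/
theorem exists_extC {K : Type} [Field K] (ι : K →+* Qb) (φ : K →+* ℂ) :
    ∃ Ψ : Qb →+* ℂ, Ψ.comp ι = φ := by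
  have : CharZero K := ⟨fun m n h => by
    have := congrArg ι h
    rw [map_natCast, map_natCast] at this
    exact_mod_cast this⟩
  let _ : Algebra ℚ K := DivisionRing.toRatAlgebra
  let _ : Algebra K Qb := ι.toAlgebra
  let _ : Algebra K ℂ := φ.toAlgebra
  have : IsScalarTower ℚ K Qb := IsScalarTower.of_algebraMap_eq' (Subsingleton.elim _ _)
  have : Algebra.IsAlgebraic K Qb := Algebra.IsAlgebraic.tower_top (K := ℚ) K
  refine ⟨(IsAlgClosed.lift (R := K) (S := Qb) (M := ℂ) : Qb →ₐ[K] ℂ), ?_⟩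
  ext x
  exact AlgHom.commutes (IsAlgClosed.lift (R := K) (S := Qb) (M := ℂ) : Qb →ₐ[K] ℂ) x

/-- two embeddings of `ℚ̄` in `ℂ` differ by an automorphism -/
theorem exists_compC (Ψ Ψ' : Qb →+* ℂ) : ∃ h : GQ, Ψ' = Ψ.comp (h : Qb →+* Qb) := by
  let _ : Algebra Qb ℂ := Ψ.toAlgebra
  let _ : Algebra ℚ ℂ := DivisionRing.toRatAlgebra
  have : IsScalarTower ℚ Qb ℂ := IsScalarTower.of_algebraMap_eq' (Subsingleton.elim _ _)
  let ψ : Qb →ₐ[ℚ] ℂ := { Ψ' with
    commutes' := fun r => by
      show Ψ' (algebraMap ℚ Qb r) = _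
      rw [eq_ratCast (algebraMap ℚ Qb) r, map_ratCast, eq_ratCast (algebraMap ℚ ℂ) r] }
  refine ⟨AlgHom.restrictNormal' ψ Qb, ?_⟩
  ext x
  exact (AlgHom.restrictNormal_commutes ψ Qb x).symm

variable (j : Qb →+* ℂ)

/-- the embedding attached to a coset -/
noncomputable def cosetEmbC : GQ ⧸ U → ((lgV hU).E →+* ℂ) :=
  Quotient.lift (fun g : GQ => (j.comp (g : Qb →+* Qb)).comp (ιE (lgV hU))) (by
    intro g g' h
    have h' : g⁻¹ * g' ∈ U := QuotientGroup.leftRel_apply.1 h
    rw [mem_V_iff hU] at h'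
    ext x
    show j (g (ιE (lgV hU) x)) = j (g' (ιE (lgV hU) x))
    congr 1
    have h1 := h' x
    rw [AlgEquiv.mul_apply, AlgEquiv.aut_inv, AlgEquiv.symm_apply_eq] at h1
    exact h1.symm)

lemma cosetEmbC_mk (g : GQ) : cosetEmbC hU j (g : GQ ⧸ U) =
    (j.comp (g : Qb →+* Qb)).comp (ιE (lgV hU)) := rfl

lemma cosetEmbC_bijective : Function.Bijective (cosetEmbC hU j) := by
  constructor
  · intro a b h
    obtain ⟨g, rfl⟩ := QuotientGroup.mk_surjective a
    obtain ⟨g', rfl⟩ := QuotientGroup.mk_surjective b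
    rw [cosetEmbC_mk, cosetEmbC_mk] at h
    rw [QuotientGroup.eq, mem_V_iff hU]
    intro x
    have h1 : j (g (ιE (lgV hU) x)) = j (g' (ιE (lgV hU) x)) := RingHom.congr_fun h x
    have h2 := j.injective h1
    rw [AlgEquiv.mul_apply, AlgEquiv.aut_inv, AlgEquiv.symm_apply_eq]
    exact h2.symm
  · intro φ
    obtain ⟨Ψ, hΨ⟩ := exists_extC (ιE (lgV hU)) φ
    obtain ⟨h, rfl⟩ := exists_compC j Ψ
    exact ⟨(h : GQ ⧸ U), hΨ⟩

lemma cosetEmbC_rt (δ : V ⧸ U.subgroupOf V) (z : GQ ⧸ U) :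
    cosetEmbC hU j (rtFun U V hUV δ z) =
      (cosetEmbC hU j z).comp (aD hUV hU δ : (lgV hU).E →+* (lgV hU).E) := by
  obtain ⟨g, rfl⟩ := QuotientGroup.mk_surjective z
  obtain ⟨v, rfl⟩ := QuotientGroup.mk_surjective δ
  rw [rtFun_mk, cosetEmbC_mk, cosetEmbC_mk]
  ext x
  show j (g ((v : GQ) (ιE (lgV hU) x))) = j (g (ιE (lgV hU) (aV hUV hU v x)))
  have h1 : ιE (lgV hU) (aV hUV hU v x) = (v : GQ) (ιE (lgV hU) x) := jS_apply (v : GQ) _
  rw [h1]

variable {j} {c : GQ} (hc : ∀ x, j (c x) = (starRingEnd ℂ) (j x))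

include hc in
lemma cosetEmbC_conj (z : GQ ⧸ U) : cosetEmbC hU j (cosetAct U c z) =
    ComplexEmbedding.conjugate (cosetEmbC hU j z) := by
  obtain ⟨g, rfl⟩ := QuotientGroup.mk_surjective z
  rw [cosetAct_mk, cosetEmbC_mk, cosetEmbC_mk]
  ext x
  exact hc (g (ιE (lgV hU) x))

include hc in
lemma h_inv_inf (I : AInv p (V ⧸ U.subgroupOf V)) :
    I.h (rtInv U V hUV p (Subgroup.zpowers c)) =
      I.h (fnAct (rInf (aD hUV hU)) (ZMod p)) := by
  have hbij := cosetEmbC_bijective hU j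
  let e : GQ ⧸ U ≃ ((lgV hU).E →+* ℂ) := Equiv.ofBijective _ hbij
  have hcz : ∀ (f : InfinitePlace (lgV hU).E → ZMod p) (z : GQ ⧸ U),
      f (InfinitePlace.mk (cosetEmbC hU j (cosetAct U c z))) =
        f (InfinitePlace.mk (cosetEmbC hU j z)) := by
    intro f z
    rw [cosetEmbC_conj hU hc, InfinitePlace.mk_conjugate_eq]
  let D : EHom (fnAct (rInf (aD hUV hU)) (ZMod p))
      (rtInv U V hUV p (Subgroup.zpowers c)) :=
    { f :=
        { toFun := fun k => ⟨fun z => k (InfinitePlace.mk (cosetEmbC hU j z)), by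
            have h1 : Subgroup.zpowers c ≤
              { carrier := {h : GQ | ∀ z, k (InfinitePlace.mk (cosetEmbC hU j (cosetAct U h z))) =
                  k (InfinitePlace.mk (cosetEmbC hU j z))}
                mul_mem' := fun {a b} ha hb z => by
                  rw [map_mul, Equiv.Perm.mul_apply, ha, hb]
                one_mem' := fun z => by rw [map_one]; rfl
                inv_mem' := fun {a} ha z => by
                  have h2 := ha (cosetAct U a⁻¹ z)
                  rw [← Equiv.Perm.mul_apply, ← map_mul, mul_inv_cancel, map_one] at h2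
                  exact h2.symm : Subgroup GQ } := by
              rw [Subgroup.zpowers_le]
              exact hcz k
            exact fun h hh z => h1 hh z⟩
          map_zero' := rfl
          map_add' := fun _ _ => rfl }
      comm := fun δ k => by
        apply Subtype.ext
        funext z
        show k (rInf (aD hUV hU) δ⁻¹ (InfinitePlace.mk (cosetEmbC hU j z))) =
          k (InfinitePlace.mk (cosetEmbC hU j (rtFun U V hUV δ z)))
        rw [cosetEmbC_rt hUV hU]
        congr 1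
        ext x
        rw [rInf_apply, inv_inv]
        rfl }
  symm
  have hfi := hU.finiteIndex
  have hfin : Finite (GQ ⧸ U) := inferInstance
  refine I.h_bij D ⟨?_, ?_⟩ (Finite.of_injective _ Subtype.val_injective) ?_
  · intro k k' h
    funext w
    obtain ⟨φ, rfl⟩ : ∃ φ, InfinitePlace.mk φ = w := ⟨w.embedding, w.mk_embedding⟩
    obtain ⟨z, rfl⟩ := hbij.2 φ
    exact congrFun (congrArg Subtype.val h) z
  · rintro ⟨f, hf⟩
    have hf' : ∀ φ : (lgV hU).E →+* ℂ, f (e.symm (ComplexEmbedding.conjugate φ)) = f (e.symm φ) := by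
      intro φ
      obtain ⟨z, rfl⟩ := e.surjective φ
      have h1 : ComplexEmbedding.conjugate (e z) = e (cosetAct U c z) :=
        (cosetEmbC_conj hU hc z).symm
      rw [h1, Equiv.symm_apply_apply, Equiv.symm_apply_apply]
      exact hf c (Subgroup.mem_zpowers c) z
    refine ⟨fun w => f (e.symm w.embedding), ?_⟩
    apply Subtype.ext
    funext z
    show f (e.symm (InfinitePlace.mk (cosetEmbC hU j z)).embedding) = f z
    have h1 : InfinitePlace.mk (InfinitePlace.mk (cosetEmbC hU j z)).embedding =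
        InfinitePlace.mk (cosetEmbC hU j z) := InfinitePlace.mk_embedding _
    rw [InfinitePlace.mk_eq_iff] at h1
    have h2 : e.symm (cosetEmbC hU j z) = z := e.symm_apply_apply z
    rcases h1 with h1 | h1
    · rw [h1, h2]
    · rw [← hf', h1, h2]
  · intro f
    apply Subtype.ext
    funext z
    show p • ((f : GQ ⧸ U → ZMod p) z) = 0
    rw [nsmul_eq_mul, CharP.cast_eq_zero, zero_mul]

end Fermat.Agent.Units
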