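import Fermat.Agent.Units.Val
import Fermat.Agent.PT.MulFun
import Fermat.Agent.PTC.Abhn55

/-!
# Kummer theory with the action of `V/U`
-/

set_option autoImplicit false

open scoped Pointwise NumberField

namespace Fermat.Agent.Units

open Fermat.Agent.PT Fermat.Agent.PTLocal Fermat.Agent.PTGlob Fermat.Agent.CFT Fermat.Agent.CFT6
  Fermat.Agent.PTC

-- the frozen algebra structure on `ℚ̄`, and the induced ones on subfields
attribute [-instance] DivisionRing.toRatAlgebra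
noncomputable local instance instAlgebraQb11 : Algebra ℚ (AlgebraicClosure ℚ) :=
  DivisionRing.toRatAlgebra

/-- absolute Galois group -/
abbrev GQ := PTGlob.GQ

/-- `ℚ̄` -/
abbrev Qb := PTGlob.Qb

variable {S : Finset Nat.Primes} {p : ℕ} [hp : Fact p.Prime] {U V : Subgroup GQ} (hUV : U ≤ V)
  [hN : (U.subgroupOf V).Normal] (hU : IsOpenSub (sL S) U)

include hUV in
lemma conj_mem_U (v : V) {u : GQ} (hu : u ∈ U) : (v : GQ)⁻¹ * u * v ∈ U := by
  have h1 : (⟨u, hUV hu⟩ : V) ∈ U.subgroupOf V := hu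
  have h2 := hN.conj_mem _ h1 v⁻¹
  have h3 : (v : GQ)⁻¹ * u * (v : GQ)⁻¹⁻¹ ∈ U := h2
  rwa [inv_inv] at h3

include hUV in
lemma jS_mem_E (v : V) {x : OmS S} (hx : x ∈ (lgV hU).E) : jS S (v : GQ) x ∈ (lgV hU).E := by
  rw [(lgV hU).mem_E] at hx ⊢
  intro g
  have h1 : jS S ((v : GQ)⁻¹ * (g : GQ) * v) x = x := hx ⟨_, conj_mem_U hUV v g.2⟩
  show jS S (g : GQ) (jS S (v : GQ) x) = jS S (v : GQ) x
  have h2 : jS S (g : GQ) (jS S (v : GQ) x) = jS S ((g : GQ) * v) x := by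
    rw [map_mul]; rfl
  have h3 : (g : GQ) * v = v * ((v : GQ)⁻¹ * (g : GQ) * v) := by group
  rw [h2, h3, map_mul]
  show jS S (v : GQ) (jS S ((v : GQ)⁻¹ * (g : GQ) * v) x) = _
  rw [h1]

/-- the action of `V` on the field of `U` -/
noncomputable def aV : V →* ((lgV hU).E ≃+* (lgV hU).E) where
  toFun v :=
    { toFun := fun x => ⟨jS S (v : GQ) x, jS_mem_E hUV hU v x.2⟩
      invFun := fun x => ⟨jS S ((v⁻¹ : V) : GQ) x, jS_mem_E hUV hU v⁻¹ x.2⟩
      left_inv := fun x => by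
        apply Subtype.ext
        show jS S ((v⁻¹ : V) : GQ) (jS S (v : GQ) (x : OmS S)) = x
        have : (jS S ((v⁻¹ : V) : GQ) * jS S (v : GQ)) (x : OmS S) = x := by
          rw [← map_mul, Subgroup.coe_inv, inv_mul_cancel, map_one]; rfl
        exact this
      right_inv := fun x => by
        apply Subtype.ext
        show jS S (v : GQ) (jS S ((v⁻¹ : V) : GQ) (x : OmS S)) = x
        have : (jS S (v : GQ) * jS S ((v⁻¹ : V) : GQ)) (x : OmS S) = x := by
          rw [← map_mul, Subgroup.coe_inv, mul_inv_cancel, map_one]; rfl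
        exact this
      map_mul' := fun x y => Subtype.ext (map_mul (jS S (v : GQ)) _ _)
      map_add' := fun x y => Subtype.ext (map_add (jS S (v : GQ)) _ _) }
  map_one' := by
    ext x
    show ((jS S ((1 : V) : GQ) (x : OmS S) : OmS S) : Qb) = _
    rw [Subgroup.coe_one, map_one]; rfl
  map_mul' v w := by
    ext x
    show ((jS S ((v * w : V) : GQ) (x : OmS S) : OmS S) : Qb) =
      ((jS S (v : GQ) (jS S (w : GQ) (x : OmS S)) : OmS S) : Qb)
    rw [Subgroup.coe_mul, map_mul]; rfl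

lemma aV_coe (v : V) (x : (lgV hU).E) : ((aV hUV hU v x : (lgV hU).E) : OmS S) =
    jS S (v : GQ) x := rfl

/-- the action of `V/U` on the field of `U` -/
noncomputable def aD : V ⧸ U.subgroupOf V →* ((lgV hU).E ≃+* (lgV hU).E) :=
  QuotientGroup.lift (U.subgroupOf V) (aV hUV hU) (by
    intro u hu
    have hu' : (u : GQ) ∈ U := hu
    ext x
    show ((jS S (u : GQ) (x : OmS S) : OmS S) : Qb) = ((x : OmS S) : Qb)
    have h1 : jS S (u : GQ) (x : OmS S) = x := (lgV hU).mem_E.1 x.2 ⟨u, hu'⟩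
    rw [h1])

lemma aD_mk (v : V) : aD hUV hU (v : V ⧸ U.subgroupOf V) = aV hUV hU v := rfl

/-- the equivariant function attached to an element of the field -/
noncomputable def kapF (x : (lgV hU).Eˣ) : GQ ⧸ U → Additive (OmS S)ˣ :=
  Quotient.lift (fun g => (lgSL S).act g (Additive.ofMul (incE (lgV hU) x))) (by
    intro g g' h
    have h' : g⁻¹ * g' ∈ U := QuotientGroup.leftRel_apply.1 h
    have h1 : (lgSL S).act (g⁻¹ * g') (Additive.ofMul (incE (lgV hU) x)) =
        Additive.ofMul (incE (lgV hU) x) :=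
      congrArg Additive.ofMul (uact_incE (lgV hU) ⟨_, h'⟩ x)
    show (lgSL S).act g _ = (lgSL S).act g' _
    have h2 : g' = g * (g⁻¹ * g') := by group
    conv_rhs => rw [h2, act_mul, h1])

lemma kapF_mk (x : (lgV hU).Eˣ) (g : GQ) :
    kapF hU x (g : GQ ⧸ U) = (lgSL S).act g (Additive.ofMul (incE (lgV hU) x)) := rfl

lemma kapF_mul (x y : (lgV hU).Eˣ) : kapF hU (x * y) = kapF hU x + kapF hU y := by
  ext z
  obtain ⟨g, rfl⟩ := QuotientGroup.mk_surjective z
  rw [Pi.add_apply, kapF_mk, kapF_mk, kapF_mk, map_mul, ofMul_mul, map_add]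

lemma kapF_one : kapF hU 1 = 0 := by
  ext z
  obtain ⟨g, rfl⟩ := QuotientGroup.mk_surjective z
  rw [kapF_mk, map_one, ofMul_one, map_zero]
  rfl

lemma kapF_act (x : (lgV hU).Eˣ) (g : GQ) (z : GQ ⧸ U) :
    kapF hU x (cosetAct U g z) = (lgSL S).act g (kapF hU x z) := by
  obtain ⟨h, rfl⟩ := QuotientGroup.mk_surjective z
  rw [cosetAct_mk, kapF_mk, kapF_mk, act_mul]

lemma kapF_rt (δ : V ⧸ U.subgroupOf V) (x : (lgV hU).Eˣ) (z : GQ ⧸ U) :
    kapF hU (Units.map (aD hUV hU δ : (lgV hU).E →* (lgV hU).E) x) z =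
      kapF hU x (rtFun U V hUV δ z) := by
  obtain ⟨g, rfl⟩ := QuotientGroup.mk_surjective z
  obtain ⟨v, rfl⟩ := QuotientGroup.mk_surjective δ
  rw [rtFun_mk, kapF_mk, kapF_mk, act_mul]
  rfl

/-- `Eˣ ≃ H⁰(Map(G/U, Ωˣ))` -/
noncomputable def kap0 : Additive (lgV hU).Eˣ →+ H0 (mapAct (cosetAct U) (lgSL S).act) where
  toFun x := ⟨kapF hU (Additive.toMul x), mem_H0_mapAct.2 (fun g z => kapF_act hU _ g z)⟩
  map_zero' := Subtype.ext (kapF_one hU)
  map_add' x y := Subtype.ext (kapF_mul hU _ _)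

lemma kap0_coe (x : Additive (lgV hU).Eˣ) (z : GQ ⧸ U) :
    (kap0 hU x : GQ ⧸ U → Additive (OmS S)ˣ) z = kapF hU (Additive.toMul x) z := rfl

lemma kap0_injective : Function.Injective (kap0 hU) := by
  intro x y h
  have h1 := congrFun (congrArg Subtype.val h) ((1 : GQ) : GQ ⧸ U)
  have h2 : kapF hU (Additive.toMul x) ((1 : GQ) : GQ ⧸ U) =
    kapF hU (Additive.toMul y) ((1 : GQ) : GQ ⧸ U) := h1
  rw [kapF_mk, kapF_mk, act_one, act_one] at h2
  exact incE_injective (lgV hU) (Additive.ofMul.injective h2)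

/-- an invariant function is determined by an element of the field -/
lemma exists_of_inv {f : GQ ⧸ U → Additive (OmS S)ˣ}
    (hf : ∀ g z, f (cosetAct U g z) = (lgSL S).act g (f z)) : ∃ x, kapF hU x = f := by
  obtain ⟨x, hx⟩ := exists_incE (lgV hU) (y := Additive.toMul (f ((1 : GQ) : GQ ⧸ U))) (by
    intro g
    have h1 := hf (g : GQ) ((1 : GQ) : GQ ⧸ U)
    have h2 : cosetAct U (g : GQ) ((1 : GQ) : GQ ⧸ U) = ((1 : GQ) : GQ ⧸ U) := by
      rw [cosetAct_mk, QuotientGroup.eq, mul_one, mul_one]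
      exact U.inv_mem g.2
    rw [h2] at h1
    exact congrArg Additive.toMul h1.symm)
  refine ⟨x, ?_⟩
  ext z
  obtain ⟨g, rfl⟩ := QuotientGroup.mk_surjective z
  have h3 := hf g ((1 : GQ) : GQ ⧸ U)
  rw [cosetAct_mk, mul_one] at h3
  rw [kapF_mk, hx, h3]
  rfl

lemma kap0_surjective : Function.Surjective (kap0 hU) := by
  rintro ⟨f, hf⟩
  obtain ⟨x, hx⟩ := exists_of_inv hU (mem_H0_mapAct.1 hf)
  exact ⟨Additive.ofMul x, Subtype.ext hx⟩

/-- the action of `V/U` on units of the field -/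
noncomputable def uAct {Δ : Type} [Group Δ] {K : Type} [Field K] (a : Δ →* (K ≃+* K)) :
    Act Δ (Additive Kˣ) where
  toFun δ := MonoidHom.toAdditive (Units.map (a δ : K →* K))
  map_one' := by
    ext x
    show a 1 _ = _
    rw [map_one]; rfl
  map_mul' g h := by
    ext x
    show a (g * h) _ = a g (a h _)
    rw [map_mul]; rfl

/-- the isomorphism `Eˣ ≃ H⁰` is equivariant -/
noncomputable def kapE : EHom (uAct (aD hUV hU)) (rtH0 U V hUV (lgSL S).act) where
  f := kap0 hU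
  comm δ x := by
    apply Subtype.ext
    funext z
    exact kapF_rt hUV hU δ (Additive.toMul x) z

/-! ### The Kummer sequence -/

variable {ζ : OmS S} (hζ : IsPrimitiveRoot ζ p)

/-- the Kummer sequence `0 → μ_p → Ωˣ → (Ωˣ)^p → 0` over `ℚ` -/
noncomputable def kumG : SES (muA p) (lgSL S).act (pAct p (lgSL S).act) where
  i := muG hζ
  p := pMul p (lgSL S).act
  inj := zetaHom_injective hζ
  surj := AddMonoidHom.rangeRestrict_surjective _
  exact b := by
    constructor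
    · intro h
      have h1 : ((Additive.toMul b : (OmS S)ˣ) : OmS S) ^ p = 1 := by
        have h2 : p • b = 0 := congrArg Subtype.val h
        have h3 := congrArg (fun a => ((Additive.toMul a : (OmS S)ˣ) : OmS S)) h2
        simpa [toMul_nsmul] using h3
      obtain ⟨i, hi, hi2⟩ := hζ.eq_pow_of_pow_eq_one h1
      refine ⟨(i : ZMod p), ?_⟩
      apply Additive.toMul.injective
      apply Units.ext
      show ((Additive.toMul (zetaHom hζ (i : ZMod p)) : (OmS S)ˣ) : OmS S) = _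
      rw [zetaHom_apply, ZMod.val_natCast_of_lt hi, hi2]
    · rintro ⟨a, rfl⟩
      apply Subtype.ext
      show p • zetaHom hζ a = 0
      rw [← map_nsmul, nsmul_eq_mul, CharP.cast_eq_zero, zero_mul, map_zero]

include hU in
lemma smooth_mapAct_act : Smooth (sL S) (mapAct (cosetAct U) (lgSL S).act) := by
  have := hU.finiteIndex
  exact Smooth.mapAct (levelTrivial_cosetAct hU) (lgSL S).smooth

include hU in
lemma h1_mapAct_act (x : H1 (sL S) (mapAct (cosetAct U) (lgSL S).act)) : x = 0 := by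
  have := hU.finiteIndex
  have hξ := levelTrivial_cosetAct hU
  have hbij := sh_h1_bijective hξ (lgSL S).smooth (isTrans_cosetAct U)
  apply hbij.1
  exact (((lgSL S).sub _ (isOpenSub_stab hξ _)).h90 _).trans (map_zero _).symm

/-- the connecting map -/
noncomputable def dK : H0 (mapAct (cosetAct U) (pAct p (lgSL S).act)) →+
    H1 (sL S) (mapAct (cosetAct U) (muA p)) :=
  ((kumG hζ).mapX (cosetAct U)).δ0 (smooth_mapAct_act hU)

lemma dK_surjective : Function.Surjective (dK hU hζ) := by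
  intro x
  exact (((kumG hζ).mapX (cosetAct U)).exact_H1_left (smooth_mapAct_act hU) x).1
    (h1_mapAct_act hU _)

lemma dK_eq_zero (x : H0 (mapAct (cosetAct U) (pAct p (lgSL S).act))) :
    dK hU hζ x = 0 ↔ ∃ y : H0 (mapAct (cosetAct U) (lgSL S).act),
      ((kumG hζ).mapX (cosetAct U)).p.h0 y = x :=
  ((kumG hζ).mapX (cosetAct U)).exact_H0_right (smooth_mapAct_act hU) x

lemma dK_rt (δ : V ⧸ U.subgroupOf V) (x : H0 (mapAct (cosetAct U) (pAct p (lgSL S).act))) :
    dK hU hζ (rtH0 U V hUV (pAct p (lgSL S).act) δ x) =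
      rtH1 U V hUV (sL S) (muA p) δ (dK hU hζ x) := by
  symm
  exact SES.δ0_nat ((kumG hζ).mapX (cosetAct U)) ((kumG hζ).mapX (cosetAct U))
    (smooth_mapAct_act hU) (smooth_mapAct_act hU)
    (((rt_comm U V hUV (muA p)).ehom δ).pair (sL S))
    (((rt_comm U V hUV (lgSL S).act).ehom δ).pair (sL S))
    (((rt_comm U V hUV (pAct p (lgSL S).act)).ehom δ).pair (sL S))
    (fun _ => rfl) (fun _ => rfl) (fun _ => rfl) x

/-- `KS → H⁰(Map(G/U, (Ωˣ)^p))` -/
noncomputable def kapP (hpS : ExtCitation.pPrime p ∈ S) :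
    Additive (KS (lgV hU).E p S) →+ H0 (mapAct (cosetAct U) (pAct p (lgSL S).act)) where
  toFun x := ⟨fun z => ⟨kapF hU (Additive.toMul x : KS (lgV hU).E p S) z, by
      obtain ⟨g, rfl⟩ := QuotientGroup.mk_surjective z
      obtain ⟨c, hc⟩ := exists_pow_of_KS (lgV hU) (exists_pPrime hpS)
        (Additive.toMul x : KS (lgV hU).E p S).2
      refine ⟨(lgSL S).act g (Additive.ofMul c), ?_⟩
      rw [kapF_mk, ← hc, ofMul_pow, map_nsmul]
      rfl⟩, mem_H0_mapAct.2 (fun g z => Subtype.ext (kapF_act hU _ g z))⟩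
  map_zero' := by
    apply Subtype.ext
    funext z
    apply Subtype.ext
    exact congrFun (kapF_one hU) z
  map_add' x y := by
    apply Subtype.ext
    funext z
    apply Subtype.ext
    exact congrFun (kapF_mul hU _ _) z

lemma kapP_coe (hpS : ExtCitation.pPrime p ∈ S) (x : Additive (KS (lgV hU).E p S)) (z : GQ ⧸ U) :
    (((kapP hU hpS x : GQ ⧸ U → (nsmulAddMonoidHom p :
      Additive (OmS S)ˣ →+ Additive (OmS S)ˣ).range) z) : Additive (OmS S)ˣ) =
      kapF hU (Additive.toMul x : KS (lgV hU).E p S) z := rfl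

lemma kapP_surjective (hpS : ExtCitation.pPrime p ∈ S) : Function.Surjective (kapP hU hpS) := by
  rintro ⟨f, hf⟩
  obtain ⟨x, hx⟩ := exists_of_inv hU (f := fun z => (f z : Additive (OmS S)ˣ)) (fun g z =>
    congrArg Subtype.val (mem_H0_mapAct.1 hf g z))
  have hxK : x ∈ KS (lgV hU).E p S := by
    obtain ⟨c, hc⟩ := (f ((1 : GQ) : GQ ⧸ U)).2
    apply mem_KS_of_pow (lgV hU) (c := Additive.toMul c)
    have h1 := congrFun hx ((1 : GQ) : GQ ⧸ U)
    rw [kapF_mk, act_one] at h1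
    have h2 : Additive.ofMul (incE (lgV hU) x) = p • c := h1.trans hc.symm
    exact (congrArg Additive.toMul h2).symm
  refine ⟨Additive.ofMul ⟨x, hxK⟩, ?_⟩
  apply Subtype.ext
  funext z
  apply Subtype.ext
  exact congrFun hx z

/-- the Kummer map on `S`-units -/
noncomputable def kumU (hpS : ExtCitation.pPrime p ∈ S) : Additive (SUnits (lgV hU).E S) →+
    H1 (sL S) (mapAct (cosetAct U) (muA p)) :=
  (dK hU hζ).comp ((kapP hU hpS).comp (MonoidHom.toAdditive
    (Subgroup.inclusion (SUnits_le_KS p S))))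

lemma kumU_apply (hpS : ExtCitation.pPrime p ∈ S) (x : SUnits (lgV hU).E S) :
    kumU hU hζ hpS (Additive.ofMul x) = dK hU hζ (kapP hU hpS (Additive.ofMul
      ⟨(x : (lgV hU).Eˣ), SUnits_le_KS p S x.2⟩)) := rfl

lemma dK_kapP_pow (hpS : ExtCitation.pPrime p ∈ S) (t : (lgV hU).Eˣ)
    (ht : t ^ p ∈ KS (lgV hU).E p S) :
    dK hU hζ (kapP hU hpS (Additive.ofMul ⟨t ^ p, ht⟩)) = 0 := by
  rw [dK_eq_zero]
  refine ⟨kap0 hU (Additive.ofMul t), ?_⟩
  apply Subtype.ext
  funext z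
  apply Subtype.ext
  obtain ⟨g, rfl⟩ := QuotientGroup.mk_surjective z
  rw [kapP_coe]
  show p • kapF hU t (g : GQ ⧸ U) = kapF hU (t ^ p) (g : GQ ⧸ U)
  rw [kapF_mk, kapF_mk, map_pow, ofMul_pow, map_nsmul]

lemma kumU_eq_zero (hpS : ExtCitation.pPrime p ∈ S) (x : SUnits (lgV hU).E S) :
    kumU hU hζ hpS (Additive.ofMul x) = 0 ↔ ∃ t : SUnits (lgV hU).E S, t ^ p = x := by
  constructor
  · intro h
    rw [kumU_apply, dK_eq_zero] at h
    obtain ⟨y, hy⟩ := h
    obtain ⟨t, rfl⟩ := kap0_surjective hU y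
    have h1 := congrArg (fun f : H0 (mapAct (cosetAct U) (pAct p (lgSL S).act)) =>
      (((f : GQ ⧸ U → (nsmulAddMonoidHom p :
      Additive (OmS S)ˣ →+ Additive (OmS S)ˣ).range) ((1 : GQ) : GQ ⧸ U)) :
        Additive (OmS S)ˣ)) hy
    have h2 : p • kapF hU (Additive.toMul t) ((1 : GQ) : GQ ⧸ U) =
      kapF hU (x : (lgV hU).Eˣ) ((1 : GQ) : GQ ⧸ U) := h1
    rw [kapF_mk, kapF_mk, act_one, act_one, ← ofMul_pow, ← map_pow] at h2
    have h3 : (Additive.toMul t) ^ p = (x : (lgV hU).Eˣ) :=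
      incE_injective (lgV hU) (Additive.ofMul.injective h2)
    have h4 : Additive.toMul t ∈ SUnits (lgV hU).E S := by
      intro q hq φ
      have h5 := x.2 q hq φ
      rw [← h3, Units.val_pow_eq_pow_val, map_pow, norm_pow] at h5
      exact (pow_eq_one_iff_of_nonneg (norm_nonneg _) hp.out.ne_zero).1 h5
    exact ⟨⟨_, h4⟩, Subtype.ext h3⟩
  · rintro ⟨t, rfl⟩
    rw [kumU_apply]
    exact dK_kapP_pow hU hζ hpS (t : (lgV hU).Eˣ) _

lemma kumU_surjective (hpS : ExtCitation.pPrime p ∈ S)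
    (hCl : ∀ c : ClS (lgV hU).E S, c ^ p = 1 → c = 1) :
    Function.Surjective (kumU hU hζ hpS) := by
  intro y
  obtain ⟨z, rfl⟩ := dK_surjective hU hζ y
  obtain ⟨x, rfl⟩ := kapP_surjective hU hpS z
  obtain ⟨x, hx⟩ := x
  -- decompose `x`
  have h1 : (⟨x, hx⟩ : KS (lgV hU).E p S) ∈ (rootCl (K := (lgV hU).E) p S hp.out.ne_zero).ker := by
    rw [MonoidHom.mem_ker]
    apply Subtype.ext
    exact hCl _ (rootCl (K := (lgV hU).E) p S hp.out.ne_zero ⟨x, hx⟩).2
  rw [rootCl_ker, Subgroup.mem_subgroupOf, Subgroup.mem_sup] at h1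
  obtain ⟨_, ⟨t, rfl⟩, u, hu, htu⟩ := h1
  refine ⟨Additive.ofMul ⟨u, hu⟩, ?_⟩
  rw [kumU_apply]
  have ht : t ^ p ∈ KS (lgV hU).E p S := pow_le_KS p S ⟨t, rfl⟩
  have h2 : (Additive.ofMul (⟨x, hx⟩ : KS (lgV hU).E p S)) =
      Additive.ofMul (⟨t ^ p, ht⟩ : KS (lgV hU).E p S) +
        Additive.ofMul (⟨u, SUnits_le_KS p S hu⟩ : KS (lgV hU).E p S) := by
    apply Additive.toMul.injective
    apply Subtype.ext
    exact htu.symm
  have h3 : dK hU hζ (kapP hU hpS (Additive.ofMul (⟨x, hx⟩ : KS (lgV hU).E p S))) =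
      dK hU hζ (kapP hU hpS (Additive.ofMul (⟨u, SUnits_le_KS p S hu⟩ : KS (lgV hU).E p S))) := by
    rw [h2, map_add, map_add, dK_kapP_pow, zero_add]
  exact h3.symm

lemma kapP_rt (hpS : ExtCitation.pPrime p ∈ S) (δ : V ⧸ U.subgroupOf V)
    (x : SUnits (lgV hU).E S) :
    kapP hU hpS (MonoidHom.toAdditive (Subgroup.inclusion (SUnits_le_KS p S))
      (sAct (aD hUV hU) S δ (Additive.ofMul x))) =
    rtH0 U V hUV (pAct p (lgSL S).act) δ (kapP hU hpS (Additive.ofMul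
      ⟨(x : (lgV hU).Eˣ), SUnits_le_KS p S x.2⟩)) := by
  apply Subtype.ext
  funext z
  apply Subtype.ext
  exact kapF_rt hUV hU δ (x : (lgV hU).Eˣ) z

lemma kumU_rt (hpS : ExtCitation.pPrime p ∈ S) (δ : V ⧸ U.subgroupOf V)
    (x : Additive (SUnits (lgV hU).E S)) :
    kumU hU hζ hpS (sAct (aD hUV hU) S δ x) =
      rtH1 U V hUV (sL S) (muA p) δ (kumU hU hζ hpS x) := by
  have h1 := congrArg (dK hU hζ) (kapP_rt hUV hU hpS δ (Additive.toMul x))
  rw [dK_rt] at h1
  exact h1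

/-- the Kummer map, equivariantly -/
noncomputable def kumE (hpS : ExtCitation.pPrime p ∈ S) :
    EHom (sAct (aD hUV hU) S) (rtH1 U V hUV (sL S) (muA p)) :=
  ⟨kumU hU hζ hpS, fun δ x => kumU_rt hUV hU hζ hpS δ x⟩

lemma nsmul_H1_mapX (x : H1 (sL S) (mapAct (cosetAct U) (muA p))) : p • x = 0 := by
  obtain ⟨c, rfl⟩ := H1.mk_surjective _ _ x
  rw [← map_nsmul]
  have : p • c = 0 := by
    apply Subtype.ext
    funext g x
    show p • ((c : GQ → (GQ ⧸ U) → ZMod p) g x) = 0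
    rw [nsmul_eq_mul, CharP.cast_eq_zero, zero_mul]
  rw [this, map_zero]

/-- **Kummer theory**: `E_S/p ≃ H¹(G, Map(G/U, μ_p))`, equivariantly -/
theorem h_mod_SUnits (I : AInv p (V ⧸ U.subgroupOf V)) (hpS : ExtCitation.pPrime p ∈ S)
    (hCl : ∀ c : ClS (lgV hU).E S, c ^ p = 1 → c = 1) :
    I.h (modAct p (sAct (aD hUV hU) S)) = I.h (rtH1 U V hUV (sL S) (muA p)) := by
  obtain ⟨ζ, hζ⟩ := exists_zeta (S := S) hpS
  refine I.h_mod_eq (kumE hUV hU hζ hpS) nsmul_H1_mapX (kumU_surjective hU hζ hpS hCl) ?_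
    (fgp_of_fg hp.out.ne_zero).1
  intro x hx
  obtain ⟨t, ht⟩ := (kumU_eq_zero hU hζ hpS (Additive.toMul x)).1 hx
  exact ⟨Additive.ofMul t, congrArg Additive.ofMul ht⟩

end Fermat.Agent.Units
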