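import Fermat.Agent.Units.Dir

/-!
# Valuations of `S`-units, equivariantly
-/

set_option autoImplicit false

open Module NumberField IsDedekindDomain

namespace Fermat.Agent.Units

open Fermat.Agent.PT Fermat.Agent.CFT Fermat.Agent.CFT6

section pi

variable {Δ : Type} [Group Δ] {ι : Type} {A : ι → Type} [∀ i, AddCommGroup (A i)]

/-- product action -/
def piAct (ρ : ∀ i, Act Δ (A i)) : Act Δ (∀ i, A i) where
  toFun g :=
    { toFun := fun f i => ρ i g (f i)
      map_zero' := by ext i; exact map_zero _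
      map_add' := fun f f' => by ext i; exact map_add _ _ _ }
  map_one' := by
    ext f i
    exact act_one _ _
  map_mul' g h := by
    ext f i
    exact act_mul _ _ _ _

lemma piAct_apply (ρ : ∀ i, Act Δ (A i)) (g : Δ) (f : ∀ i, A i) (i : ι) :
    piAct ρ g f i = ρ i g (f i) := rfl

/-- values on products -/
theorem AInv.h_pi {p : ℕ} (I : AInv p Δ) [Fintype ι] [∀ i, Finite (A i)] (ρ : ∀ i, Act Δ (A i))
    (h0 : ∀ i, ∀ x : A i, p • x = 0) : I.h (piAct ρ) = ∏ i, I.h (ρ i) := by
  classical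
  have hfin : Finite (∀ i, A i) := inferInstance
  have h0' : ∀ f : (∀ i, A i), p • f = 0 := fun f => funext fun i => h0 i _
  let N : Finset ι → AddSubgroup (∀ i, A i) := fun s =>
    { carrier := {f | ∀ i ∉ s, f i = 0}
      add_mem' := fun {f g} hf hg i hi => by
        show f i + g i = 0
        rw [hf i hi, hg i hi, add_zero]
      zero_mem' := fun i _ => rfl
      neg_mem' := fun {f} hf i hi => by
        show - f i = 0
        rw [hf i hi, neg_zero] }
  have hN : ∀ s, ∀ g, ∀ f ∈ N s, piAct ρ g f ∈ N s := by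
    intro s g f hf i hi
    show ρ i g (f i) = 0
    rw [hf i hi, map_zero]
  have key : ∀ s : Finset ι, I.h (subAct (piAct ρ) (N s) (hN s)) = ∏ i ∈ s, I.h (ρ i) := by
    intro s
    induction s using Finset.induction_on with
    | empty =>
      rw [Finset.prod_empty]
      have : Subsingleton (N ∅) := ⟨fun f g => by
        apply Subtype.ext
        ext i
        rw [f.2 i (Finset.notMem_empty i), g.2 i (Finset.notMem_empty i)]⟩
      exact I.h_subsingleton _
    | insert b s hb ih =>
      rw [Finset.prod_insert hb, ← ih, mul_comm]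
      have hle : N s ≤ N (insert b s) := fun f hf i hi => hf i (fun h => hi
            (Finset.mem_insert_of_mem h))
      let S : SES (subAct (piAct ρ) (N s) (hN s)) (subAct (piAct ρ) (N (insert b s)) (hN _))
          (ρ b) :=
        { i := ⟨AddSubgroup.inclusion hle, fun _ _ => rfl⟩
          p := ⟨(Pi.evalAddMonoidHom A b).comp (N (insert b s)).subtype, fun _ _ => rfl⟩
          inj := AddSubgroup.inclusion_injective hle
          surj := fun x => ⟨⟨Pi.single b x, fun i hi => by
            rw [Pi.single_eq_of_ne]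
            rintro rfl
            exact hi (Finset.mem_insert_self _ _)⟩, Pi.single_eq_same b x⟩
          exact := fun f => by
            constructor
            · intro h
              refine ⟨⟨f, fun i hi => ?_⟩, rfl⟩
              by_cases hib : i = b
              · subst hib; exact h
              · exact f.2 i (fun h' => by
                  rcases Finset.mem_insert.1 h' with h' | h'
                  · exact hib h'
                  · exact hi h')
            · rintro ⟨g, rfl⟩
              exact g.2 b hb }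
      exact I.ses S inferInstance (fun f => Subtype.ext (h0' f))
  rw [← key Finset.univ]
  symm
  exact I.h_bij (ρ := subAct (piAct ρ) (N Finset.univ) (hN _)) (σ := piAct ρ)
    ⟨(N Finset.univ).subtype, fun _ _ => rfl⟩
    ⟨Subtype.val_injective, fun f => ⟨⟨f, fun i hi => absurd (Finset.mem_univ i) hi⟩, rfl⟩⟩
    inferInstance h0'

end pi

section sigma

variable {Δ : Type} [Group Δ] {ι : Type} {X : ι → Type}

/-- action on a disjoint union -/
def sigmaPerm (r : ∀ i, Δ →* Equiv.Perm (X i)) : Δ →* Equiv.Perm (Σ i, X i) where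
  toFun g := Equiv.sigmaCongrRight (fun i => r i g)
  map_one' := by
    ext ⟨i, x⟩ : 1
    show (⟨i, r i 1 x⟩ : Σ i, X i) = ⟨i, x⟩
    rw [map_one]; rfl
  map_mul' g h := by
    ext ⟨i, x⟩ : 1
    show (⟨i, r i (g * h) x⟩ : Σ i, X i) = ⟨i, r i g (r i h x)⟩
    rw [map_mul]; rfl

lemma sigmaPerm_apply (r : ∀ i, Δ →* Equiv.Perm (X i)) (g : Δ) (i : ι) (x : X i) :
    sigmaPerm r g ⟨i, x⟩ = ⟨i, r i g x⟩ := rfl

theorem AInv.h_fnAct_sigma {p : ℕ} [hp : Fact p.Prime] (I : AInv p Δ) [Fintype ι]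
    [∀ i, Finite (X i)] (r : ∀ i, Δ →* Equiv.Perm (X i)) :
    I.h (fnAct (sigmaPerm r) (ZMod p)) = ∏ i, I.h (fnAct (r i) (ZMod p)) := by
  have h0 : ∀ i, ∀ f : X i → ZMod p, p • f = 0 := fun i f => by
    ext x
    show p • f x = 0
    rw [nsmul_eq_mul, CharP.cast_eq_zero, zero_mul]
  rw [← I.h_pi (fun i => fnAct (r i) (ZMod p)) h0]
  refine I.h_congr ⟨{ toFun := fun f i x => f ⟨i, x⟩
                      invFun := fun f z => f z.1 z.2
                      left_inv := fun f => rfl
                      right_inv := fun f => rfl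
                      map_add' := fun f g => rfl }, fun g f => rfl⟩ inferInstance
    (fun f => funext fun i => h0 i _)

end sigma

section ord

variable {K : Type} [Field K] [NumberField K]

lemma exists_ord_one {q : Nat.Primes} (φ : Emb K q) : ∃ x : K, x ≠ 0 ∧ ord (CFT6.place φ) x = 1 := by
  obtain ⟨π, h⟩ := (CFT6.place φ).valuation_exists_uniformizer K
  refine ⟨π, ?_, ?_⟩
  · rintro rfl
    rw [map_zero] at h; exact WithZero.coe_ne_zero h.symm
  · unfold ord
    rw [h, WithZero.log_exp, neg_neg]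

lemma unif_comp {q : Nat.Primes} (φ : Emb K q) (α : K ≃+* K) :
    unif (φ.comp (α : K →+* K)) = unif φ := by
  have h1 := unif_pos φ
  have h2 := unif_lt_one φ
  have h1' := unif_pos (φ.comp (α : K →+* K))
  have h2' := unif_lt_one (φ.comp (α : K →+* K))
  obtain ⟨x, hx0, hx⟩ := exists_ord_one (φ.comp (α : K →+* K))
  obtain ⟨y, hy0, hy⟩ := exists_ord_one φ
  obtain ⟨m, hm⟩ : ∃ m : ℤ, unif (φ.comp (α : K →+* K)) = unif φ ^ m := by
    refine ⟨ord (CFT6.place φ) (α x), ?_⟩
    rw [← norm_eq_unif_zpow φ ((map_ne_zero α).2 hx0)]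
    have h3 := norm_eq_unif_zpow (φ.comp (α : K →+* K)) hx0
    rw [hx, zpow_one] at h3
    exact h3.symm
  obtain ⟨n, hn⟩ : ∃ n : ℤ, unif φ = unif (φ.comp (α : K →+* K)) ^ n := by
    refine ⟨ord (CFT6.place (φ.comp (α : K →+* K))) (α.symm y), ?_⟩
    rw [← norm_eq_unif_zpow (φ.comp (α : K →+* K)) ((map_ne_zero α.symm).2 hy0)]
    have h3 := norm_eq_unif_zpow φ hy0
    rw [hy, zpow_one] at h3
    rw [← h3]
    show ‖φ y‖ = ‖φ (α (α.symm y))‖
    rw [RingEquiv.apply_symm_apply]
  have h3 : unif φ ^ (m * n) = unif φ ^ (1 : ℤ) := by rw [zpow_mul, ← hm, ← hn, zpow_one]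
  have h4 := zpow_right_injective₀ h1 h2.ne h3
  rcases Int.mul_eq_one_iff_eq_one_or_neg_one.1 h4 with ⟨h, _⟩ | ⟨h, _⟩
  · rw [hm, h, zpow_one]
  · rw [h, zpow_neg_one] at hm
    rw [hm] at h2'
    exact absurd (one_lt_inv_iff₀.2 ⟨h1, h2⟩) (not_lt.2 h2'.le)

lemma ord_comp {q : Nat.Primes} (φ : Emb K q) (α : K ≃+* K) {x : K} (hx : x ≠ 0) :
    ord (CFT6.place (φ.comp (α : K →+* K))) x = ord (CFT6.place φ) (α x) := by
  have h1 := norm_eq_unif_zpow (φ.comp (α : K →+* K)) hx
  have h2 := norm_eq_unif_zpow φ ((map_ne_zero α).2 hx)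
  rw [unif_comp] at h1
  have h3 : unif φ ^ ord (CFT6.place (φ.comp (α : K →+* K))) x = unif φ ^ ord (CFT6.place φ) (α x) := by
    rw [← h1, ← h2]; rfl
  exact zpow_right_injective₀ (unif_pos φ) (unif_lt_one φ).ne h3

end ord

section field

variable {Δ : Type} [Group Δ] {K : Type} [Field K] (a : Δ →* (K ≃+* K))

/-- the action on places above `q` -/
noncomputable def rq (q : Nat.Primes) : Δ →* Equiv.Perm (Orb K q) where
  toFun δ :=
    { toFun := Quotient.map' (fun φ => φ.comp (a δ⁻¹ : K →+* K)) (by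
        rintro φ φ' ⟨τ, rfl⟩
        exact ⟨τ, rfl⟩)
      invFun := Quotient.map' (fun φ => φ.comp (a δ : K →+* K)) (by
        rintro φ φ' ⟨τ, rfl⟩
        exact ⟨τ, rfl⟩)
      left_inv := by
        rintro ⟨φ⟩
        refine congrArg (Quotient.mk _) (RingHom.ext fun x => ?_)
        show φ (a δ⁻¹ (a δ x)) = φ x
        congr 1
        have : (a δ⁻¹ * a δ) x = x := by rw [← map_mul, inv_mul_cancel, map_one]; rfl
        exact this
      right_inv := by
        rintro ⟨φ⟩
        refine congrArg (Quotient.mk _) (RingHom.ext fun x => ?_)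
        show φ (a δ (a δ⁻¹ x)) = φ x
        congr 1
        have : (a δ * a δ⁻¹) x = x := by rw [← map_mul, mul_inv_cancel, map_one]; rfl
        exact this }
  map_one' := by
    ext ⟨φ⟩
    refine congrArg (Quotient.mk _) (RingHom.ext fun x => ?_)
    show φ (a 1⁻¹ x) = φ x
    rw [inv_one, map_one]; rfl
  map_mul' g h := by
    ext ⟨φ⟩
    refine congrArg (Quotient.mk _) (RingHom.ext fun x => ?_)
    show φ (a (g * h)⁻¹ x) = φ (a h⁻¹ (a g⁻¹ x))
    rw [mul_inv_rev, map_mul]; rfl

lemma rq_mk (q : Nat.Primes) (δ : Δ) (φ : Emb K q) :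
    rq a q δ (Quotient.mk _ φ : Orb K q) = (Quotient.mk _ (φ.comp (a δ⁻¹ : K →+* K)) : Orb K q) :=
  rfl

variable [NumberField K] (S : Finset Nat.Primes)

instance finite_Orb' (q : Nat.Primes) : Finite (Orb K q) := Finite.of_equiv _ (orbEquiv q).symm

/-- the valuation map -/
noncomputable def ordS : EHom (sAct a S) (fnAct (sigmaPerm (fun q : ↥S => rq a q.1)) ℤ) where
  f :=
    { toFun := fun x z => ord (orbEquiv z.1.1 z.2 : HeightOneSpectrum (𝓞 K))
        (((Additive.toMul x : SUnits K S) : Kˣ) : K)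
      map_zero' := by
        ext z
        exact ord_one _
      map_add' := fun x y => by
        ext z
        exact ord_mul _ (Units.ne_zero _) (Units.ne_zero _) }
  comm δ x := by
    ext ⟨q, ⟨φ⟩⟩
    show ord (CFT6.place φ) (a δ _) = ord (CFT6.place (φ.comp (a δ⁻¹⁻¹ : K →+* K))) _
    rw [inv_inv]
    exact (ord_comp φ (a δ) (Units.ne_zero _)).symm

lemma ordS_apply (x : Additive (SUnits K S)) (q : ↥S) (φ : Emb K q.1) :
    (ordS a S).f x ⟨q, Quotient.mk _ φ⟩ = ord (CFT6.place φ)
      (((Additive.toMul x : SUnits K S) : Kˣ) : K) := rfl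

/-- the places of `K` above `S` -/
noncomputable def plEquiv : (Σ q : ↥S, Orb K q.1) ≃ above K S :=
  (Equiv.sigmaCongrRight (fun q : ↥S => orbEquiv q.1)).trans (aboveEquiv S).symm

lemma plEquiv_coe (z : Σ q : ↥S, Orb K q.1) :
    ((plEquiv S z : above K S) : HeightOneSpectrum (𝓞 K)) = orbEquiv z.1.1 z.2 := by
  have h1 : ∀ v : above K S, (v : HeightOneSpectrum (𝓞 K)) = ((aboveEquiv S v).2 : _) := fun _ => rfl
  rw [h1]
  unfold plEquiv
  rw [Equiv.trans_apply, Equiv.apply_symm_apply]
  rfl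

lemma finite_coker_ordS : Finite (((Σ q : ↥S, Orb K q.1) → ℤ) ⧸ (ordS a S).f.range) := by
  have h1 : Module.Finite ℤ (((Σ q : ↥S, Orb K q.1) → ℤ) ⧸ (ordS a S).f.range) :=
    Module.Finite.of_surjective (QuotientAddGroup.mk' (ordS a S).f.range).toIntLinearMap
      (QuotientAddGroup.mk'_surjective _)
  refine Module.finite_of_fg_torsion _ (fun y => ⟨⟨(Nat.card (ClassGroup (𝓞 K)) : ℤ),
    mem_nonZeroDivisors_of_ne_zero (by exact_mod_cast Nat.card_pos.ne')⟩, ?_⟩)
  obtain ⟨f, rfl⟩ := QuotientAddGroup.mk_surjective y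
  show (Nat.card (ClassGroup (𝓞 K)) : ℤ) • (QuotientAddGroup.mk f :
    ((Σ q : ↥S, Orb K q.1) → ℤ) ⧸ (ordS a S).f.range) = 0
  rw [← QuotientAddGroup.mk_zsmul, QuotientAddGroup.eq_zero_iff]
  obtain ⟨x, hx⟩ := smul_mem_range (above K S) (f ∘ (plEquiv S).symm)
  have hxS : ((Additive.toMul x : (above K S).unit K) : Kˣ) ∈ SUnits K S := by
    rw [SUnits_eq]; exact (Additive.toMul x).2
  refine ⟨Additive.ofMul ⟨_, hxS⟩, ?_⟩
  ext z
  have h2 := congrFun hx (plEquiv S z)
  have h3 : ((Nat.card (ClassGroup (𝓞 K)) : ℤ) • (f ∘ (plEquiv S).symm)) (plEquiv S z) =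
      ((Nat.card (ClassGroup (𝓞 K)) : ℤ) • f) z := by
    show (Nat.card (ClassGroup (𝓞 K)) : ℤ) • f ((plEquiv S).symm (plEquiv S z)) = _
    rw [Equiv.symm_apply_apply]; rfl
  rw [h3] at h2
  rw [← h2]
  show ord (orbEquiv z.1.1 z.2 : HeightOneSpectrum (𝓞 K)) _ =
    ord ((plEquiv S z : above K S) : HeightOneSpectrum (𝓞 K)) _
  rw [plEquiv_coe]
  rfl

/-- the sequence `0 → U → U_S → im → 0` -/
noncomputable def sesS : SES (sAct a ∅) (sAct a S) (rangeAct (ordS a S)) where
  i := ⟨MonoidHom.toAdditive (Subgroup.inclusion (fun x hx q _ φ =>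
      hx q (Finset.notMem_empty q) φ)), fun _ _ => rfl⟩
  p := toRange (ordS a S)
  inj := fun x y h => by
    have h1 : (Additive.toMul x : SUnits K ∅).1 = (Additive.toMul y : SUnits K ∅).1 :=
      congrArg (fun z : Additive (SUnits K S) => ((Additive.toMul z : SUnits K S) : Kˣ)) h
    exact (Subtype.ext h1 : (Additive.toMul x : SUnits K ∅) = Additive.toMul y)
  surj := AddMonoidHom.rangeRestrict_surjective _
  exact x := by
    constructor
    · intro h
      have h1 : (ordS a S).f x = 0 := congrArg Subtype.val h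
      refine ⟨Additive.ofMul ⟨((Additive.toMul x : SUnits K S) : Kˣ), fun q _ φ => ?_⟩, rfl⟩
      by_cases hq : q ∈ S
      · have h2 : ord (CFT6.place φ) _ = 0 := congrFun h1 ⟨⟨q, hq⟩, Quotient.mk _ φ⟩
        rw [norm_eq_unif_zpow φ (Units.ne_zero _), h2, zpow_zero]
      · exact (Additive.toMul x : SUnits K S).2 q hq φ
    · rintro ⟨y, rfl⟩
      apply Subtype.ext
      show (ordS a S).f _ = 0
      ext ⟨q, ⟨φ⟩⟩
      show ord (CFT6.place φ) (((Additive.toMul y : SUnits K ∅) : Kˣ) : K) = 0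
      rw [ord_eq_zero_iff (Units.ne_zero _), CFT6.valuation_eq_one_iff]
      exact (Additive.toMul y : SUnits K ∅).2 q (Finset.notMem_empty _) φ

/-- **the `S`-unit theorem**, equivariantly -/
theorem AInv.HH_SUnits {p : ℕ} [hp : Fact p.Prime] [Finite Δ] (I : AInv p Δ) :
    I.HH (sAct a S) * I.h (trivAct Δ (ZMod p)) =
      I.h (fnAct (rInf a) (ZMod p)) * ∏ q : ↥S, (I.h (fnAct (rq a q.1) (ZMod p)) : ℚ) := by
  have h1 := I.HH_mul (sesS a S) (fgp_of_fg hp.out.ne_zero)
    (fgp_of_fg hp.out.ne_zero) (by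
      have : Module.Finite ℤ (ordS a S).f.range :=
        Module.Finite.of_surjective (ordS a S).f.rangeRestrict.toIntLinearMap
          (AddMonoidHom.rangeRestrict_surjective _)
      exact fgp_of_fg hp.out.ne_zero)
  have h2 : I.HH (rangeAct (ordS a S)) = ∏ q : ↥S, (I.h (fnAct (rq a q.1) (ZMod p)) : ℚ) := by
    have : Module.Finite ℤ (ordS a S).f.range :=
        Module.Finite.of_surjective (ordS a S).f.rangeRestrict.toIntLinearMap
          (AddMonoidHom.rangeRestrict_surjective _)
    have h3 := I.HH_of_inj (ρ := rangeAct (ordS a S))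
      (σ := fnAct (sigmaPerm (fun q : ↥S => rq a q.1)) ℤ)
      ⟨(ordS a S).f.range.subtype, fun _ _ => rfl⟩ Subtype.val_injective (by
        have h4 : ((ordS a S).f.range.subtype).range = (ordS a S).f.range :=
          AddSubgroup.range_subtype _
        show Finite (_ ⧸ ((ordS a S).f.range.subtype).range)
        rw [h4]
        exact finite_coker_ordS a S) (fgp_of_fg hp.out.ne_zero) (fgp_of_fg hp.out.ne_zero)
    rw [h3, I.HH_fnAct, I.h_fnAct_sigma]
    push_cast
    rfl
  rw [h1, h2, ← I.HH_units a]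
  ring

end field

end Fermat.Agent.Units
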